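/-
The multiples of a point all of whose division polynomials are nonzero.
-/
import Mathlib.AlgebraicGeometry.EllipticCurve.DivisionPolynomial.Basic
import Mathlib.AlgebraicGeometry.EllipticCurve.Affine.Point
import Mathlib.Tactic.LinearCombination
import Mathlib.Tactic.FieldSimp

set_option autoImplicit false

namespace Fermat.Agent.EC

open WeierstrassCurve WeierstrassCurve.Affine Polynomial

section defs

variable {R : Type*} [CommRing R] (W : WeierstrassCurve.Affine R) (x y : R)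

/-- The value of `2Y + a₁X + a₃`. -/
def psiTwo : R := 2 * y + W.a₁ * x + W.a₃

/-- The sequence of values of the division polynomials at `(x, y)`. -/
noncomputable def psiVal (n : ℤ) : R :=
  normEDS (psiTwo W x y) (W.Ψ₃.eval x) (W.preΨ₄.eval x) n

/-- The sequence of values of `φₙ` at `(x, y)`. -/
noncomputable def phiVal (n : ℤ) : R :=
  x * psiVal W x y n ^ 2 - psiVal W x y (n + 1) * psiVal W x y (n - 1)

theorem evalEval_ψ₂_eq : W.ψ₂.evalEval x y = psiTwo W x y := by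
  rw [WeierstrassCurve.ψ₂]
  exact W.evalEval_polynomialY x y

theorem psiVal_eq (n : ℤ) : psiVal W x y n = (W.ψ n).evalEval x y := by
  have := map_normEDS (evalEvalRingHom x y) W.ψ₂ (C W.Ψ₃) (C W.preΨ₄) n
  simp only [coe_evalEvalRingHom, evalEval_C] at this
  rw [psiVal, WeierstrassCurve.ψ, this, evalEval_ψ₂_eq]

theorem map_psiTwo {S : Type*} [CommRing S] (f : R →+* S) :
    psiTwo (W.map f : WeierstrassCurve.Affine S) (f x) (f y) = f (psiTwo W x y) := by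
  simp [psiTwo, map_ofNat]

theorem map_psiVal {S : Type*} [CommRing S] (f : R →+* S) (n : ℤ) :
    psiVal (W.map f : WeierstrassCurve.Affine S) (f x) (f y) n = f (psiVal W x y n) := by
  simp only [psiVal, map_normEDS, map_psiTwo]
  congr 1
  · rw [map_Ψ₃, eval_map_apply]
  · rw [map_preΨ₄, eval_map_apply]

theorem map_phiVal {S : Type*} [CommRing S] (f : R →+* S) (n : ℤ) :
    phiVal (W.map f : WeierstrassCurve.Affine S) (f x) (f y) n = f (phiVal W x y n) := by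
  simp only [phiVal, map_psiVal, map_sub, map_mul, map_pow]

theorem psiVal_zero : psiVal W x y 0 = 0 := normEDS_zero ..

theorem psiVal_one : psiVal W x y 1 = 1 := normEDS_one ..

theorem psiVal_two : psiVal W x y 2 = psiTwo W x y := normEDS_two ..

theorem psiVal_three : psiVal W x y 3 = W.Ψ₃.eval x := normEDS_three ..

theorem psiVal_four : psiVal W x y 4 = W.preΨ₄.eval x * psiTwo W x y := normEDS_four ..

theorem psiVal_neg (n : ℤ) : psiVal W x y (-n) = -psiVal W x y n := normEDS_neg ..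

theorem phiVal_neg (n : ℤ) : phiVal W x y (-n) = phiVal W x y n := by
  simp only [phiVal, psiVal_neg]
  rw [show -n + 1 = -(n - 1) by ring, show -n - 1 = -(n + 1) by ring, psiVal_neg, psiVal_neg]
  ring

theorem psiVal_odd (m : ℤ) : psiVal W x y (2 * m + 1) =
    psiVal W x y (m + 2) * psiVal W x y m ^ 3 -
      psiVal W x y (m - 1) * psiVal W x y (m + 1) ^ 3 := normEDS_odd ..

theorem psiVal_even (m : ℤ) : psiVal W x y (2 * m) * psiTwo W x y =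
    psiVal W x y (m - 1) ^ 2 * psiVal W x y m * psiVal W x y (m + 2) -
      psiVal W x y (m - 2) * psiVal W x y m * psiVal W x y (m + 1) ^ 2 := normEDS_even ..

theorem eval_Ψ₃_eq : W.Ψ₃.eval x =
    3 * x ^ 4 + W.b₂ * x ^ 3 + 3 * W.b₄ * x ^ 2 + 3 * W.b₆ * x + W.b₈ := by
  simp [WeierstrassCurve.Ψ₃]

theorem eval_Ψ₂Sq_eq : W.Ψ₂Sq.eval x = 4 * x ^ 3 + W.b₂ * x ^ 2 + 2 * W.b₄ * x + W.b₆ := by
  simp [WeierstrassCurve.Ψ₂Sq]

theorem psiTwo_sq {x y : R} (h : W.Equation x y) : psiTwo W x y ^ 2 = W.Ψ₂Sq.eval x := by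
  rw [equation_iff] at h
  simp only [psiTwo, eval_Ψ₂Sq_eq, b₂, b₄, b₆]
  linear_combination 4 * h

/-- `preΨ₄ = (6X² + b₂X + b₄)Ψ₃ - Ψ₂Sq²`. -/
theorem eval_preΨ₄_eq : W.preΨ₄.eval x =
    (6 * x ^ 2 + W.b₂ * x + W.b₄) * W.Ψ₃.eval x - W.Ψ₂Sq.eval x ^ 2 := by
  simp only [WeierstrassCurve.preΨ₄, eval_Ψ₃_eq, eval_Ψ₂Sq_eq, eval_add, eval_mul, eval_pow,
    eval_C, eval_X, eval_ofNat]
  linear_combination (x ^ 2) * W.b_relation

end defs

/-- `S` such that `(x(P+Q) + x(P-Q))(x_P - x_Q)² = S`. -/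
def sumForm {R : Type*} [CommRing R] (W : WeierstrassCurve.Affine R) (x₁ x₂ : R) : R :=
  2 * (x₁ + x₂) * (x₁ * x₂) + W.b₂ * (x₁ * x₂) + W.b₄ * (x₁ + x₂) + W.b₆

/-- `P` such that `x(P+Q) x(P-Q) (x_P - x_Q)² = P`. -/
def prodForm {R : Type*} [CommRing R] (W : WeierstrassCurve.Affine R) (x₁ x₂ : R) : R :=
  (x₁ * x₂) ^ 2 - W.b₄ * (x₁ * x₂) - W.b₆ * (x₁ + x₂) - W.b₈

variable {L : Type*} [Field L] [DecidableEq L] {W : WeierstrassCurve.Affine L}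

theorem addX_add_addX_negY {x₁ x₂ y₁ y₂ : L} (h₁ : W.Equation x₁ y₁) (h₂ : W.Equation x₂ y₂)
    (hx : x₁ ≠ x₂) :
    (W.addX x₁ x₂ (W.slope x₁ x₂ y₁ y₂) + W.addX x₁ x₂ (W.slope x₁ x₂ y₁ (W.negY x₂ y₂))) *
      (x₁ - x₂) ^ 2 = sumForm W x₁ x₂ := by
  have hd : x₁ - x₂ ≠ 0 := sub_ne_zero.2 hx
  rw [equation_iff] at h₁ h₂
  simp only [slope_of_X_ne hx, addX, negY, sumForm, b₂, b₄, b₆]
  field_simp
  linear_combination 2 * h₁ + 2 * h₂

theorem addX_mul_addX_negY {x₁ x₂ y₁ y₂ : L} (h₁ : W.Equation x₁ y₁) (h₂ : W.Equation x₂ y₂)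
    (hx : x₁ ≠ x₂) :
    (W.addX x₁ x₂ (W.slope x₁ x₂ y₁ y₂) * W.addX x₁ x₂ (W.slope x₁ x₂ y₁ (W.negY x₂ y₂))) *
      (x₁ - x₂) ^ 2 = prodForm W x₁ x₂ := by
  have hd : x₁ - x₂ ≠ 0 := sub_ne_zero.2 hx
  rw [equation_iff] at h₁ h₂
  simp only [slope_of_X_ne hx, addX, negY, prodForm, b₄, b₆, b₈]
  field_simp
  linear_combination
    ((x₁ - x₂) * (2 * (x₁ ^ 2 + x₁ * x₂ + x₂ ^ 2) + (2 * W.a₄ + W.a₁ * W.a₃) -
        2 * (x₁ + x₂) * (x₁ - x₂) + (W.a₁ ^ 2 + 4 * W.a₂) * x₂)) * h₁ -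
    ((x₁ - x₂) * (2 * (x₁ ^ 2 + x₁ * x₂ + x₂ ^ 2) + (2 * W.a₄ + W.a₁ * W.a₃) +
        2 * (x₁ + x₂) * (x₁ - x₂) + (W.a₁ ^ 2 + 4 * W.a₂) * x₁)) * h₂ +
    ((y₁ ^ 2 + W.a₁ * x₁ * y₁ + W.a₃ * y₁ - (x₁ ^ 3 + W.a₂ * x₁ ^ 2 + W.a₄ * x₁ + W.a₆)) -
      (y₂ ^ 2 + W.a₁ * x₂ * y₂ + W.a₃ * y₂ - (x₂ ^ 3 + W.a₂ * x₂ ^ 2 + W.a₄ * x₂ + W.a₆))) *
      (h₁ - h₂)

theorem addX_self {x₁ y₁ : L} (h₁ : W.Equation x₁ y₁) (hy : psiTwo W x₁ y₁ ≠ 0) :
    W.addX x₁ x₁ (W.slope x₁ x₁ y₁ y₁) * psiTwo W x₁ y₁ ^ 2 =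
      x₁ * psiTwo W x₁ y₁ ^ 2 - W.Ψ₃.eval x₁ := by
  have hne : y₁ ≠ W.negY x₁ y₁ := by
    intro hh; apply hy; simp only [psiTwo, negY] at *; linear_combination hh
  have hs : W.slope x₁ x₁ y₁ y₁ * psiTwo W x₁ y₁ =
      3 * x₁ ^ 2 + 2 * W.a₂ * x₁ + W.a₄ - W.a₁ * y₁ := by
    rw [slope_of_Y_ne rfl hne, show y₁ - W.negY x₁ y₁ = psiTwo W x₁ y₁ by
      simp only [psiTwo, negY]; ring, div_mul_cancel₀ _ hy]
  rw [equation_iff] at h₁
  simp only [eval_Ψ₃_eq, psiTwo, addX, b₂, b₄, b₆, b₈] at hs ⊢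
  linear_combination
    (W.slope x₁ x₁ y₁ y₁ * (2 * y₁ + W.a₁ * x₁ + W.a₃) +
      (3 * x₁ ^ 2 + 2 * W.a₂ * x₁ + W.a₄ - W.a₁ * y₁) +
      W.a₁ * (2 * y₁ + W.a₁ * x₁ + W.a₃)) * hs +
    (-(12 * x₁ + (W.a₁ ^ 2 + 4 * W.a₂))) * h₁

theorem psiTwo_addY_self {x₁ y₁ : L} (h₁ : W.Equation x₁ y₁) (hy : psiTwo W x₁ y₁ ≠ 0) :
    psiTwo W (W.addX x₁ x₁ (W.slope x₁ x₁ y₁ y₁))
        (W.addY x₁ x₁ y₁ (W.slope x₁ x₁ y₁ y₁)) * psiTwo W x₁ y₁ ^ 3 =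
      W.preΨ₄.eval x₁ := by
  have h3 := addX_self h₁ hy
  have hsq := psiTwo_sq W h₁
  have hne : y₁ ≠ W.negY x₁ y₁ := by
    intro hh; apply hy; simp only [psiTwo, negY] at *; linear_combination hh
  have hs : W.slope x₁ x₁ y₁ y₁ * psiTwo W x₁ y₁ =
      3 * x₁ ^ 2 + 2 * W.a₂ * x₁ + W.a₄ - W.a₁ * y₁ := by
    rw [slope_of_Y_ne rfl hne, show y₁ - W.negY x₁ y₁ = psiTwo W x₁ y₁ by
      simp only [psiTwo, negY]; ring, div_mul_cancel₀ _ hy]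
  rw [eval_preΨ₄_eq, ← hsq]
  simp only [psiTwo, addY, negAddY, negY, addX, b₂, b₄] at h3 hs ⊢
  linear_combination
    (-(2 * W.slope x₁ x₁ y₁ y₁ + W.a₁) * (2 * y₁ + W.a₁ * x₁ + W.a₃)) * h3 +
    (2 * W.Ψ₃.eval x₁) * hs

/-- The addition law on `x`-coordinates in the form used below. -/
theorem exists_sub_eq {x₁ x₂ y₁ y₂ : L} (h₁ : W.Nonsingular x₁ y₁) (h₂ : W.Nonsingular x₂ y₂)
    (hx : x₁ ≠ x₂) :
    ∃ (X₃ Y₃ X₄ Y₄ : L) (h₃ : W.Nonsingular X₃ Y₃) (h₄ : W.Nonsingular X₄ Y₄),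
      Point.some x₁ y₁ h₁ + Point.some x₂ y₂ h₂ = Point.some X₃ Y₃ h₃ ∧
      Point.some x₁ y₁ h₁ - Point.some x₂ y₂ h₂ = Point.some X₄ Y₄ h₄ ∧
      (X₃ - X₄) * (x₁ - x₂) ^ 2 = -(psiTwo W x₁ y₁ * psiTwo W x₂ y₂) ∧
      (X₃ + X₄) * (x₁ - x₂) ^ 2 = sumForm W x₁ x₂ ∧
      (X₃ * X₄) * (x₁ - x₂) ^ 2 = prodForm W x₁ x₂ := by
  refine ⟨_, _, _, _, _, _, Point.add_of_X_ne hx,
    by rw [sub_eq_add_neg, Point.neg_some]; exact Point.add_of_X_ne hx, ?_,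
    addX_add_addX_negY h₁.1 h₂.1 hx, addX_mul_addX_negY h₁.1 h₂.1 hx⟩
  rw [addX_eq_addX_negY_sub y₁ y₂ hx]
  have hd : x₂ - x₁ ≠ 0 := sub_ne_zero.2 hx.symm
  simp only [psiTwo, negY]
  field_simp
  ring

variable {x y : L}

/-- `k • P` has `x`-coordinate `φₖ / ψₖ²`. -/
def MulX (h : W.Nonsingular x y) (k : ℕ) : Prop :=
  ∃ (x' y' : L) (h' : W.Nonsingular x' y'), k • Point.some x y h = Point.some x' y' h' ∧
    (x' - x) * psiVal W x y k ^ 2 = -(psiVal W x y (k + 1) * psiVal W x y (k - 1))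

/-- `2y + a₁x + a₃` at `k • P` is `ψ₂ₖ / ψₖ⁴`. -/
def MulY (h : W.Nonsingular x y) (k : ℕ) : Prop :=
  ∀ (x' y' : L) (h' : W.Nonsingular x' y'), k • Point.some x y h = Point.some x' y' h' →
    psiTwo W x' y' * psiVal W x y k ^ 4 = psiVal W x y (2 * k)

variable (h : W.Nonsingular x y) (hψ : ∀ k : ℤ, k ≠ 0 → psiVal W x y k ≠ 0)

include hψ in
theorem mulY_of_mulX {k : ℕ} (hk : 2 ≤ k) (h₀ : MulX h (k - 1)) (h₁ : MulX h k)
    (h₂ : MulX h (k + 1)) : MulY h k := by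
  obtain ⟨xa, ya, na, hna, hxa⟩ := h₀
  obtain ⟨xb, yb, nb, hnb, hxb⟩ := h₁
  obtain ⟨xc, yc, nc, hnc, hxc⟩ := h₂
  intro x' y' h' hk'
  rw [hnb, Point.some.injEq] at hk'
  obtain ⟨rfl, rfl⟩ := hk'
  have hψb := hψ k (by omega)
  have hψa := hψ (k - 1) (by omega)
  have hψc := hψ (k + 1) (by omega)
  have hu : xb ≠ x := by
    rintro rfl
    rw [sub_self, zero_mul, zero_eq_neg] at hxb
    exact mul_ne_zero hψc hψa hxb
  obtain ⟨X₃, Y₃, X₄, Y₄, h₃, h₄, e₃, e₄, hdiff, -, -⟩ := exists_sub_eq nb h hu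
  have e3' : (k + 1) • Point.some x y h = Point.some X₃ Y₃ h₃ := by rw [succ_nsmul, hnb, e₃]
  have e4' : (k - 1) • Point.some x y h = Point.some X₄ Y₄ h₄ := by
    rw [← e₄, ← hnb, eq_sub_iff_add_eq, ← succ_nsmul, show k - 1 + 1 = k by omega]
  rw [hnc, Point.some.injEq] at e3'
  rw [hna, Point.some.injEq] at e4'
  obtain ⟨rfl, rfl⟩ := e3'
  obtain ⟨rfl, rfl⟩ := e4'
  rw [show ((k - 1 : ℕ) : ℤ) = (k : ℤ) - 1 by omega, sub_add_cancel,
    show (k : ℤ) - 1 - 1 = k - 2 by ring] at hxa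
  rw [show ((k + 1 : ℕ) : ℤ) = (k : ℤ) + 1 by omega, add_sub_cancel_right,
    show (k : ℤ) + 1 + 1 = k + 2 by ring] at hxc
  have hev := psiVal_even W x y k
  have hb : psiTwo W x y ≠ 0 := psiVal_two W x y ▸ hψ 2 (by norm_num)
  refine mul_right_cancel₀ hb ?_
  linear_combination
    (psiVal W x y k ^ 4) * hdiff + (-hev) +
    (-((xc - xa) * ((xb - x) * psiVal W x y k ^ 2 -
      psiVal W x y (k + 1) * psiVal W x y (k - 1)))) * hxb +
    (-(psiVal W x y (k - 1) ^ 2)) * hxc + (psiVal W x y (k + 1) ^ 2) * hxa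

theorem mulX_one : MulX h 1 :=
  ⟨x, y, h, one_nsmul _, by
    simp [psiVal_zero]⟩

theorem mulY_one : MulY h 1 := by
  intro x' y' h' hk
  rw [one_nsmul, Point.some.injEq] at hk
  obtain ⟨rfl, rfl⟩ := hk
  simp [psiVal_one, psiVal_two]

include hψ in
theorem mulX_two : MulX h 2 := by
  have hb : psiTwo W x y ≠ 0 := psiVal_two W x y ▸ hψ 2 (by norm_num)
  have hne : y ≠ W.negY x y := by
    intro hh; apply hb; simp only [psiTwo, negY] at *; linear_combination hh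
  refine ⟨_, _, _, (two_nsmul _).trans (Point.add_self_of_Y_ne hne), ?_⟩
  have := addX_self h.1 hb
  simp only [addX] at this
  norm_num [psiVal_two, psiVal_three, psiVal_one]
  linear_combination this

include hψ in
theorem mulX_three : MulX h 3 := by
  have hb : psiTwo W x y ≠ 0 := psiVal_two W x y ▸ hψ 2 (by norm_num)
  have hc : W.Ψ₃.eval x ≠ 0 := psiVal_three W x y ▸ hψ 3 (by norm_num)
  have hne : y ≠ W.negY x y := by
    intro hh; apply hb; simp only [psiTwo, negY] at *; linear_combination hh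
  obtain ⟨x2, y2, n2, h2, h2x, h2y⟩ : ∃ (x2 y2 : L) (n2 : W.Nonsingular x2 y2),
      2 • Point.some x y h = Point.some x2 y2 n2 ∧
      x2 * psiTwo W x y ^ 2 = x * psiTwo W x y ^ 2 - W.Ψ₃.eval x ∧
      psiTwo W x2 y2 * psiTwo W x y ^ 3 = W.preΨ₄.eval x :=
    ⟨_, _, _, (two_nsmul _).trans (Point.add_self_of_Y_ne hne), addX_self h.1 hb,
      psiTwo_addY_self h.1 hb⟩
  have hu : x2 ≠ x := by
    rintro rfl
    apply hc
    linear_combination h2x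
  obtain ⟨X₃, Y₃, X₄, Y₄, h₃, h₄, e₃, e₄, hdiff, -, -⟩ := exists_sub_eq n2 h hu
  refine ⟨X₃, Y₃, h₃, by rw [succ_nsmul, h2, e₃], ?_⟩
  rw [← h2, two_nsmul, add_sub_cancel_right, Point.some.injEq] at e₄
  obtain ⟨rfl, rfl⟩ := e₄
  norm_num [psiVal_two, psiVal_three, psiVal_four]
  refine mul_right_cancel₀ (pow_ne_zero 2 (sub_ne_zero.2 hu)) ?_
  refine mul_right_cancel₀ (pow_ne_zero 4 hb) ?_
  linear_combination (psiTwo W x y ^ 4 * W.Ψ₃.eval x ^ 2) * hdiff +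
    (W.preΨ₄.eval x * psiTwo W x y ^ 2 *
      ((x2 - x) * psiTwo W x y ^ 2 - W.Ψ₃.eval x)) * h2x +
    (-(psiTwo W x y ^ 2 * W.Ψ₃.eval x ^ 2)) * h2y

theorem even_step_algebra {R : Type*} [CommRing R] [NoZeroDivisors R]
    (W : WeierstrassCurve.Affine R) (x xb s p q2 : R) (a2 a1 a b1 b2 n0 n1 n2 : R)
    (ha : a ≠ 0)
    (hxb : (xb - x) * a ^ 2 = -(a1 * b1))
    (hs : s * (xb - x) ^ 2 = sumForm W xb x)
    (hp : p * (xb - x) ^ 2 = prodForm W xb x)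
    (hsum : (s - 2 * x) * (a1 * b1) ^ 2 = -(a * (a2 * b1 ^ 2 + b2 * a1 ^ 2)))
    (hprod : (p - x * s + x ^ 2) * (a1 * b1) ^ 2 = a ^ 2 * (a2 * b2))
    (hn0 : n0 = a1 * b1 ^ 3 - b2 * a ^ 3) (hn2 : n2 = a2 * a ^ 3 - b1 * a1 ^ 3)
    (hn1 : n1 ^ 2 = W.Ψ₂Sq.eval xb * a ^ 8) (hq : q2 * n1 ^ 2 = xb * n1 ^ 2 - W.Ψ₃.eval xb * a ^ 8) :
    (q2 - x) * n1 ^ 2 = -(n2 * n0) := by
  have hM : a1 * b1 = -((xb - x) * a ^ 2) := by linear_combination hxb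
  have hE : a2 * b2 =
      a ^ 2 * (prodForm W xb x - x * sumForm W xb x + x ^ 2 * (xb - x) ^ 2) := by
    refine mul_left_cancel₀ (pow_ne_zero 2 ha) ?_
    linear_combination (-1 : R) * hprod + (a ^ 4) * hp + (-(x * a ^ 4)) * hs +
      ((p - x * s + x ^ 2) * (a1 * b1 - (xb - x) * a ^ 2)) * hM
  have hT : a * (a2 * b1 ^ 2 + b2 * a1 ^ 2) =
      -(a ^ 4 * (sumForm W xb x - 2 * x * (xb - x) ^ 2)) := by
    linear_combination hsum + (-(a ^ 4)) * hs +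
      (-((s - 2 * x) * (a1 * b1 - (xb - x) * a ^ 2))) * hM
  have key : (xb - x) * W.Ψ₂Sq.eval xb - W.Ψ₃.eval xb +
      (xb - x) * (sumForm W xb x - 2 * x * (xb - x) ^ 2) -
      (prodForm W xb x - x * sumForm W xb x + x ^ 2 * (xb - x) ^ 2) - (xb - x) ^ 4 = 0 := by
    simp only [eval_Ψ₂Sq_eq, eval_Ψ₃_eq, sumForm, prodForm]
    ring
  linear_combination hq + (xb - x) * hn1 + n0 * hn2 + (a2 * a ^ 3 - b1 * a1 ^ 3) * hn0 +
    a ^ 8 * key + (a1 * b1 * a ^ 2) * hT + (-(a ^ 6)) * hE +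
    (-(a ^ 6 * (sumForm W xb x - 2 * x * (xb - x) ^ 2)) -
      ((a1 * b1) ^ 3 - (a1 * b1) ^ 2 * ((xb - x) * a ^ 2) + (a1 * b1) * ((xb - x) * a ^ 2) ^ 2 -
        ((xb - x) * a ^ 2) ^ 3)) * hM

include hψ in
theorem mulX_even {m : ℕ} (hm : 2 ≤ m) (h₀ : MulX h (m - 1)) (h₁ : MulX h m)
    (h₂ : MulX h (m + 1)) : MulX h (2 * m) := by
  have hY := mulY_of_mulX h hψ hm h₀ h₁ h₂
  obtain ⟨xa, ya, na, hna, hxa⟩ := h₀
  obtain ⟨xb, yb, nb, hnb, hxb⟩ := h₁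
  obtain ⟨xc, yc, nc, hnc, hxc⟩ := h₂
  have hY' := hY xb yb nb hnb
  have hψb := hψ m (by omega)
  have hψa := hψ (m - 1) (by omega)
  have hψc := hψ (m + 1) (by omega)
  have hψn := hψ (2 * m) (by omega)
  have hu : xb ≠ x := by
    rintro rfl
    rw [sub_self, zero_mul, zero_eq_neg] at hxb
    exact mul_ne_zero hψc hψa hxb
  obtain ⟨X₃, Y₃, X₄, Y₄, h₃, h₄, e₃, e₄, -, hsum, hprod⟩ := exists_sub_eq nb h hu
  have e3' : (m + 1) • Point.some x y h = Point.some X₃ Y₃ h₃ := by rw [succ_nsmul, hnb, e₃]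
  have e4' : (m - 1) • Point.some x y h = Point.some X₄ Y₄ h₄ := by
    rw [← e₄, ← hnb, eq_sub_iff_add_eq, ← succ_nsmul, show m - 1 + 1 = m by omega]
  rw [hnc, Point.some.injEq] at e3'
  rw [hna, Point.some.injEq] at e4'
  obtain ⟨rfl, rfl⟩ := e3'
  obtain ⟨rfl, rfl⟩ := e4'
  rw [show ((m - 1 : ℕ) : ℤ) = (m : ℤ) - 1 by omega, sub_add_cancel,
    show (m : ℤ) - 1 - 1 = m - 2 by ring] at hxa
  rw [show ((m + 1 : ℕ) : ℤ) = (m : ℤ) + 1 by omega, add_sub_cancel_right,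
    show (m : ℤ) + 1 + 1 = m + 2 by ring] at hxc
  have hb : psiTwo W xb yb ≠ 0 := fun h0 => hψn <| by rw [← hY', h0, zero_mul]
  have hne : yb ≠ W.negY xb yb := by
    intro hh; apply hb; simp only [psiTwo, negY] at *; linear_combination hh
  have hodd1 := psiVal_odd W x y m
  have hodd0 := psiVal_odd W x y (m - 1)
  rw [sub_add_cancel, show (m : ℤ) - 1 - 1 = m - 2 by ring,
    show (m : ℤ) - 1 + 2 = m + 1 by ring, show 2 * ((m : ℤ) - 1) + 1 = 2 * m - 1 by ring] at hodd0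
  have hd := addX_self nb.1 hb
  refine ⟨_, _, _, by rw [mul_comm, mul_nsmul, hnb, two_nsmul, Point.add_self_of_Y_ne hne], ?_⟩
  rw [show ((2 * m : ℕ) : ℤ) = 2 * (m : ℤ) by omega]
  refine even_step_algebra W x xb (xc + xa) (xc * xa) _ (psiVal W x y (m + 2))
    (psiVal W x y (m + 1)) (psiVal W x y m) (psiVal W x y (m - 1)) (psiVal W x y (m - 2))
    _ _ _ hψb hxb hsum hprod ?_ ?_ hodd0 hodd1 ?_ ?_
  · linear_combination (psiVal W x y (m - 1) ^ 2) * hxc + (psiVal W x y (m + 1) ^ 2) * hxa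
  · linear_combination ((xa - x) * psiVal W x y (m - 1) ^ 2) * hxc +
      (-(psiVal W x y (m + 2) * psiVal W x y m)) * hxa
  · rw [← hY', ← psiTwo_sq W nb.1]; ring
  · rw [← hY']; linear_combination (psiVal W x y m ^ 8) * hd

include hψ in
theorem mulX_odd {m : ℕ} (hm : 2 ≤ m) (h₀ : MulX h (m - 1)) (h₁ : MulX h m)
    (h₂ : MulX h (m + 1)) (h₃ : MulX h (m + 2)) : MulX h (2 * m + 1) := by
  have hY := mulY_of_mulX h hψ hm h₀ h₁ h₂
  have hY1 := mulY_of_mulX h hψ (k := m + 1) (by omega) h₁ h₂ h₃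
  obtain ⟨xb, yb, nb, hnb, hxb⟩ := h₁
  obtain ⟨xc, yc, nc, hnc, hxc⟩ := h₂
  have hY' := hY xb yb nb hnb
  have hY1' := hY1 xc yc nc hnc
  rw [show ((m + 1 : ℕ) : ℤ) = (m : ℤ) + 1 by omega] at hY1'
  rw [show ((m + 1 : ℕ) : ℤ) = (m : ℤ) + 1 by omega, add_sub_cancel_right,
    show (m : ℤ) + 1 + 1 = m + 2 by ring] at hxc
  have hψb := hψ m (by omega)
  have hψc := hψ (m + 1) (by omega)
  have hψn := hψ (2 * m + 1) (by omega)
  have hodd1 := psiVal_odd W x y m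
  have hdx : (xc - xb) * (psiVal W x y (m + 1) ^ 2 * psiVal W x y m ^ 2) =
      -psiVal W x y (2 * m + 1) := by
    linear_combination (psiVal W x y m ^ 2) * hxc + (-(psiVal W x y (m + 1) ^ 2)) * hxb + hodd1
  have hu : xc ≠ xb := by
    rintro rfl
    rw [sub_self, zero_mul, zero_eq_neg] at hdx
    exact hψn hdx
  obtain ⟨X₃, Y₃, X₄, Y₄, h₃, h₄, e₃, e₄, hdiff, -, -⟩ := exists_sub_eq nc nb hu
  rw [← hnc, ← hnb] at e₄
  rw [succ_nsmul, add_sub_cancel_left, Point.some.injEq] at e₄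
  obtain ⟨rfl, rfl⟩ := e₄
  refine ⟨X₃, Y₃, h₃, ?_, ?_⟩
  · rw [← e₃, ← hnc, ← hnb, ← add_nsmul]; congr 1; omega
  rw [show ((2 * m + 1 : ℕ) : ℤ) = 2 * (m : ℤ) + 1 by omega, add_sub_cancel_right,
    show (2 * (m : ℤ) + 1 + 1) = 2 * (m + 1) by ring, ← hY', ← hY1']
  linear_combination (psiVal W x y (m + 1) ^ 4 * psiVal W x y m ^ 4) * hdiff +
    (-((X₃ - x) * ((xc - xb) * (psiVal W x y (m + 1) ^ 2 * psiVal W x y m ^ 2) -
      psiVal W x y (2 * m + 1)))) * hdx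

include hψ in
/-- Every multiple of the point has the expected `x`-coordinate. -/
theorem mulX_all : ∀ n : ℕ, 1 ≤ n → MulX h n := by
  intro n
  induction n using Nat.strong_induction_on with
  | _ n ih =>
    intro hn
    rcases eq_or_ne n 1 with rfl | h1
    · exact mulX_one h
    rcases eq_or_ne n 2 with rfl | h2
    · exact mulX_two h hψ
    rcases eq_or_ne n 3 with rfl | h3
    · exact mulX_three h hψ
    rcases Nat.even_or_odd' n with ⟨m, rfl | rfl⟩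
    · exact mulX_even h hψ (by omega) (ih _ (by omega) (by omega)) (ih _ (by omega) (by omega))
        (ih _ (by omega) (by omega))
    · exact mulX_odd h hψ (by omega) (ih _ (by omega) (by omega)) (ih _ (by omega) (by omega))
        (ih _ (by omega) (by omega)) (ih _ (by omega) (by omega))

include hψ in
/-- Every multiple of the point has the expected `2y + a₁x + a₃`. -/
theorem mulY_all (n : ℕ) (hn : 1 ≤ n) : MulY h n := by
  rcases eq_or_ne n 1 with rfl | h1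
  · exact mulY_one h
  · exact mulY_of_mulX h hψ (by omega) (mulX_all h hψ _ (by omega)) (mulX_all h hψ _ (by omega))
      (mulX_all h hψ _ (by omega))

end Fermat.Agent.EC
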