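/-
Polynomial identities for the multiples of a point, over an arbitrary commutative ring.
-/
import Fermat.Agent.EC.DivPolyGeneric
import Mathlib.AlgebraicGeometry.EllipticCurve.Jacobian.Point
import Mathlib.RingTheory.Polynomial.UniqueFactorization
import Mathlib.RingTheory.IntegralClosure.IntegrallyClosed
import Mathlib.RingTheory.Localization.FractionRing

set_option autoImplicit false

namespace Fermat.Agent.EC

open WeierstrassCurve WeierstrassCurve.Affine
open scoped WeierstrassCurve.Jacobian

theorem normEDS_two_three_two (n : ℕ) : normEDS (2 : ℤ) 3 2 n = n := by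
  induction n using normEDSRec with
  | zero => simp
  | one => simp
  | two => simp [-normEDS_ofNat]
  | three => simp [-normEDS_ofNat]
  | four => simp [-normEDS_ofNat]
  | even m h1 h2 h3 h4 h5 =>
    have h := normEDS_even (2 : ℤ) 3 2 ((m : ℤ) + 3)
    rw [show (m : ℤ) + 3 - 1 = ((m + 2 : ℕ) : ℤ) by omega,
      show (m : ℤ) + 3 + 2 = ((m + 5 : ℕ) : ℤ) by omega,
      show (m : ℤ) + 3 - 2 = ((m + 1 : ℕ) : ℤ) by omega,
      show (m : ℤ) + 3 + 1 = ((m + 4 : ℕ) : ℤ) by omega,
      show (m : ℤ) + 3 = ((m + 3 : ℕ) : ℤ) by omega, h1, h2, h3, h4, h5] at h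
    push_cast at h ⊢
    refine mul_right_cancel₀ (two_ne_zero (α := ℤ)) ?_
    linear_combination h
  | odd m h1 h2 h3 h4 =>
    have h := normEDS_odd (2 : ℤ) 3 2 ((m : ℤ) + 2)
    rw [show (m : ℤ) + 2 + 2 = ((m + 4 : ℕ) : ℤ) by omega,
      show (m : ℤ) + 2 - 1 = ((m + 1 : ℕ) : ℤ) by omega,
      show (m : ℤ) + 2 + 1 = ((m + 3 : ℕ) : ℤ) by omega,
      show (m : ℤ) + 2 = ((m + 2 : ℕ) : ℤ) by omega, h1, h2, h3, h4] at h
    push_cast at h ⊢
    linear_combination h

/-- The coordinates of the universal curve with a point on it: `a₁, a₂, a₃, a₄, x, y`. -/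
abbrev Univ : Type := MvPolynomial (Fin 6) ℤ

/-- The universal Weierstrass curve through the point `(x, y)`. -/
noncomputable def univCurve : WeierstrassCurve.Affine Univ :=
  { a₁ := MvPolynomial.X 0
    a₂ := MvPolynomial.X 1
    a₃ := MvPolynomial.X 2
    a₄ := MvPolynomial.X 3
    a₆ := MvPolynomial.X 5 ^ 2 + MvPolynomial.X 0 * MvPolynomial.X 4 * MvPolynomial.X 5 +
      MvPolynomial.X 2 * MvPolynomial.X 5 -
      (MvPolynomial.X 4 ^ 3 + MvPolynomial.X 1 * MvPolynomial.X 4 ^ 2 +
        MvPolynomial.X 3 * MvPolynomial.X 4) }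

/-- The `x`-coordinate of the universal point. -/
noncomputable def univX : Univ := MvPolynomial.X 4

/-- The `y`-coordinate of the universal point. -/
noncomputable def univY : Univ := MvPolynomial.X 5

theorem univ_equation : univCurve.Equation univX univY := by
  rw [equation_iff]
  simp only [univCurve, univX, univY]
  ring

theorem exists_hom_univ {R : Type*} [CommRing R] {W : WeierstrassCurve.Affine R} {x y : R}
    (h : W.Equation x y) :
    ∃ f : Univ →+* R, (univCurve.map f : WeierstrassCurve.Affine R) = W ∧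
      f univX = x ∧ f univY = y := by
  refine ⟨MvPolynomial.eval₂Hom (Int.castRingHom R) ![W.a₁, W.a₂, W.a₃, W.a₄, x, y], ?_,
    by simp [univX], by simp [univY]⟩
  rw [equation_iff] at h
  ext <;> simp [univCurve, WeierstrassCurve.map]
  linear_combination h

theorem univ_psiVal_ne_zero {k : ℤ} (hk : k ≠ 0) : psiVal univCurve univX univY k ≠ 0 := by
  let W₀ : WeierstrassCurve.Affine ℤ := { a₁ := 0, a₂ := 0, a₃ := 0, a₄ := 0, a₆ := 0 }
  obtain ⟨f, hW, hx, hy⟩ := exists_hom_univ (W := W₀) (x := 1) (y := 1)
    (by simp [equation_iff, W₀])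
  suffices hv : ∀ n : ℕ, psiVal W₀ 1 1 n = n by
    intro h0
    have hf := congrArg f h0
    rw [← map_psiVal, hW, hx, hy, map_zero] at hf
    rcases Int.natAbs_eq k with hn | hn <;> rw [hn] at hf
    · rw [hv] at hf; omega
    · rw [psiVal_neg, hv] at hf; omega
  intro n
  have hb : psiTwo W₀ 1 1 = 2 := by simp [psiTwo, W₀]
  have hc : W₀.Ψ₃.eval 1 = 3 := by
    simp [eval_Ψ₃_eq, b₂, b₄, b₆, b₈, W₀]
  have hd : W₀.preΨ₄.eval 1 = 2 := by
    simp [eval_preΨ₄_eq, eval_Ψ₃_eq, eval_Ψ₂Sq_eq, b₂, b₄, b₆, b₈, W₀]
  rw [psiVal, hb, hc, hd]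
  exact normEDS_two_three_two n

/-- The field of fractions of `Univ`. -/
abbrev UnivField : Type := FractionRing Univ

theorem exists_omega_univ :
    ∃ ω : ℕ → Univ, ω 1 = univY ∧
      (∀ k : ℕ, 1 ≤ k →
        univCurve.toJacobian.dblXYZ ![phiVal univCurve univX univY k, ω k,
            psiVal univCurve univX univY k] =
          ![phiVal univCurve univX univY (2 * k : ℕ), ω (2 * k),
            psiVal univCurve univX univY (2 * k : ℕ)]) ∧
      (∀ k : ℕ, 1 ≤ k →
        univCurve.toJacobian.addXYZ
          ![phiVal univCurve univX univY (k + 1 : ℕ), ω (k + 1),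
            psiVal univCurve univX univY (k + 1 : ℕ)]
          ![phiVal univCurve univX univY k, ω k, psiVal univCurve univX univY k] =
          (-1 : Univ) • ![phiVal univCurve univX univY (2 * k + 1 : ℕ), ω (2 * k + 1),
            psiVal univCurve univX univY (2 * k + 1 : ℕ)]) ∧
      (∀ k : ℕ, 1 ≤ k →
        (2 * ω k + univCurve.a₁ * phiVal univCurve univX univY k *
            psiVal univCurve univX univY k +
          univCurve.a₃ * psiVal univCurve univX univY k ^ 3) * psiVal univCurve univX univY k =
          psiVal univCurve univX univY (2 * k)) := by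
  classical
  set f : Univ →+* UnivField := algebraMap Univ UnivField with hf
  have finj : Function.Injective f := IsFractionRing.injective Univ UnivField
  set W : WeierstrassCurve.Affine UnivField := univCurve.map f with hW
  set x := f univX with hx
  set y := f univY with hy
  have hψ : ∀ k : ℤ, k ≠ 0 → psiVal W x y k ≠ 0 := fun k hk => by
    rw [hW, hx, hy, map_psiVal]
    exact (map_ne_zero_iff f finj).2 (univ_psiVal_ne_zero hk)
  have heq : W.Equation x y := univ_equation.map f
  have hns : W.Nonsingular x y := by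
    refine ⟨heq, Or.inr ?_⟩
    rw [evalEval_polynomialY]
    have h2 := hψ 2 (by norm_num)
    rwa [psiVal_two] at h2
  have hX : ∀ k : ℕ, 1 ≤ k → ∃ (x' y' : UnivField) (h' : W.Nonsingular x' y') (w : Univ),
      k • Point.some x y hns = Point.some x' y' h' ∧
      x' * f (psiVal univCurve univX univY k) ^ 2 = f (phiVal univCurve univX univY k) ∧
      y' * f (psiVal univCurve univX univY k) ^ 3 = f w := by
    intro k hk
    obtain ⟨x', y', h', hk', hx'⟩ := mulX_all hns hψ k hk
    have hX' : x' * f (psiVal univCurve univX univY k) ^ 2 =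
        f (phiVal univCurve univX univY k) := by
      rw [← map_psiVal, ← map_phiVal, phiVal]
      linear_combination hx'
    have hint : IsIntegral Univ (y' * f (psiVal univCurve univX univY k) ^ 3) := by
      refine ⟨Polynomial.X ^ 2 +
        Polynomial.C (univCurve.a₁ * phiVal univCurve univX univY k *
            psiVal univCurve univX univY k +
          univCurve.a₃ * psiVal univCurve univX univY k ^ 3) * Polynomial.X -
        Polynomial.C (phiVal univCurve univX univY k ^ 3 +
          univCurve.a₂ * phiVal univCurve univX univY k ^ 2 *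
            psiVal univCurve univX univY k ^ 2 +
          univCurve.a₄ * phiVal univCurve univX univY k * psiVal univCurve univX univY k ^ 4 +
          univCurve.a₆ * psiVal univCurve univX univY k ^ 6), ?_, ?_⟩
      · monicity!
      · have e := h'.1
        rw [equation_iff] at e
        simp only [Polynomial.eval₂_sub, Polynomial.eval₂_add, Polynomial.eval₂_mul,
          Polynomial.eval₂_pow, Polynomial.eval₂_X, Polynomial.eval₂_C, map_add, map_mul, map_pow,
          ← hf, ← hX']
        simp only [hW, map_a₁, map_a₂, map_a₃, map_a₄, map_a₆] at e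
        linear_combination (f (psiVal univCurve univX univY k) ^ 6) * e
    obtain ⟨w, hw⟩ := IsIntegrallyClosed.isIntegral_iff.1 hint
    exact ⟨x', y', h', w, hk', hX', hw.symm⟩
  choose! X' Y' H' ω hk' hX' hY' using hX
  have hne : ∀ k : ℕ, 1 ≤ k → f (psiVal univCurve univX univY k) ≠ 0 := fun k hk =>
    (map_ne_zero_iff f finj).2 (univ_psiVal_ne_zero (by omega))
  have htriple : ∀ k : ℕ, 1 ≤ k →
      f ∘ ![phiVal univCurve univX univY k, ω k, psiVal univCurve univX univY k] =
        f (psiVal univCurve univX univY k) • ![X' k, Y' k, 1] := by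
    intro k hk
    rw [Jacobian.comp_fin3, Jacobian.smul_fin3, (Jacobian.fin3_def_ext _ _ _).1,
      (Jacobian.fin3_def_ext _ _ _).2.1, (Jacobian.fin3_def_ext _ _ _).2.2, ← hX' k hk,
      ← hY' k hk, mul_one, mul_comm (X' k), mul_comm (Y' k)]
  have hYid : ∀ k : ℕ, 1 ≤ k →
      psiTwo W (X' k) (Y' k) * f (psiVal univCurve univX univY k) ^ 4 =
        f (psiVal univCurve univX univY (2 * k)) := by
    intro k hk
    rw [← map_psiVal univCurve univX univY f, ← map_psiVal univCurve univX univY f]
    exact mulY_all hns hψ k hk _ _ _ (hk' k hk)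
  have hω1 : ω 1 = univY := by
    apply finj
    have h1 := hk' 1 le_rfl
    rw [one_nsmul, Point.some.injEq] at h1
    rw [← hY' 1 le_rfl, ← h1.2, Nat.cast_one, psiVal_one, map_one, one_pow, mul_one]
  refine ⟨ω, hω1, fun k hk => ?_, fun k hk => ?_, fun k hk => ?_⟩
  · apply finj.comp_left
    simp only [← Jacobian.map_dblXYZ f, htriple k hk, htriple (2 * k) (by omega)]
    rw [Jacobian.dblXYZ_smul]
    have hE : W.toJacobian.Equation ![X' k, Y' k, 1] :=
      (Jacobian.equation_some _ _).2 (H' k hk).1
    have hb : psiTwo W (X' k) (Y' k) ≠ 0 := fun h0 => hne (2 * k) (by omega) <| by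
      rw [Nat.cast_mul, Nat.cast_two, ← hYid k hk, h0, zero_mul]
    have hyne : Y' k ≠ W.negY (X' k) (Y' k) := by
      intro hh; apply hb; simp only [psiTwo, negY] at *; linear_combination hh
    have h2 : (2 * k) • Point.some x y hns = Point.some _ _ (H' (2 * k) (by omega)) :=
      hk' (2 * k) (by omega)
    have e2 : (2 * k) • Point.some x y hns = Point.some _ _ (H' k hk) + Point.some _ _ (H' k hk) := by
      rw [mul_nsmul', hk' k hk, two_nsmul]
    rw [e2, Point.add_self_of_Y_ne hyne, Point.some.injEq] at h2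
    have hd := Jacobian.dblXYZ_of_Z_ne_zero hE hE (one_ne_zero : (1 : UnivField) ≠ 0)
      (one_ne_zero : (1 : UnivField) ≠ 0) rfl
      (by simpa [Jacobian.negY_eq, Affine.negY] using hyne)
    have hz : W.toJacobian.dblZ ![X' k, Y' k, 1] = psiTwo W (X' k) (Y' k) := by
      simp [Jacobian.dblZ, Jacobian.negY_eq, psiTwo]
      ring
    simp only [Jacobian.fin3_def_ext, one_pow, div_one, h2.1, h2.2, hz] at hd
    erw [hd]
    rw [smul_smul, Nat.cast_mul, Nat.cast_two, ← hYid k hk, mul_comm]
  · apply finj.comp_left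
    simp only [← Jacobian.map_addXYZ f, Jacobian.comp_smul, map_neg, map_one,
      htriple k hk, htriple (k + 1) (by omega), htriple (2 * k + 1) (by omega)]
    rw [Jacobian.addXYZ_smul]
    have hdx : (X' (k + 1) - X' k) * (f (psiVal univCurve univX univY (k + 1 : ℕ)) *
        f (psiVal univCurve univX univY k)) ^ 2 =
        -f (psiVal univCurve univX univY (2 * k + 1 : ℕ)) := by
      have hA := hX' (k + 1) (by omega)
      have hB := hX' k hk
      have ho := congrArg f (psiVal_odd univCurve univX univY k)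
      simp only [phiVal, map_sub, map_mul, map_pow] at hA hB ho
      rw [show ((k + 1 : ℕ) : ℤ) = (k : ℤ) + 1 by omega,
        show ((2 * k + 1 : ℕ) : ℤ) = 2 * (k : ℤ) + 1 by omega] at *
      rw [add_sub_cancel_right, show (k : ℤ) + 1 + 1 = k + 2 by ring] at hA
      linear_combination (f (psiVal univCurve univX univY k) ^ 2) * hA -
        (f (psiVal univCurve univX univY (k + 1)) ^ 2) * hB + ho
    have hu : X' (k + 1) ≠ X' k := fun h0 => hne (2 * k + 1) (by omega) <| by
      rw [h0, sub_self, zero_mul, zero_eq_neg] at hdx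
      exact hdx
    have hs : (2 * k + 1) • Point.some x y hns = Point.some _ _ (H' (2 * k + 1) (by omega)) :=
      hk' (2 * k + 1) (by omega)
    have e2 : (2 * k + 1) • Point.some x y hns =
        Point.some _ _ (H' (k + 1) (by omega)) + Point.some _ _ (H' k hk) := by
      rw [show 2 * k + 1 = (k + 1) + k by omega, add_nsmul, hk' k hk, hk' (k + 1) (by omega)]
    rw [e2, Point.add_of_X_ne hu, Point.some.injEq] at hs
    have hd := Jacobian.addXYZ_of_Z_ne_zero (W := W.toJacobian)
      ((Jacobian.equation_some _ _).2 (H' (k + 1) (by omega)).1)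
      ((Jacobian.equation_some _ _).2 (H' k hk).1)
      (one_ne_zero : (1 : UnivField) ≠ 0) (one_ne_zero : (1 : UnivField) ≠ 0)
      (by simpa using hu)
    simp only [Jacobian.fin3_def_ext, one_pow, div_one, Jacobian.addZ, mul_one,
      hs.1, hs.2] at hd
    erw [hd]
    rw [smul_smul, smul_smul, show 2 * k + 1 = (k + 1) + k by omega]
    congr 1
    rw [show (k + 1) + k = 2 * k + 1 by omega]
    linear_combination hdx
  · apply finj
    have hYk := hYid k hk
    simp only [psiTwo, hW, map_a₁, map_a₃] at hYk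
    simp only [map_mul, map_add, map_pow, map_ofNat, ← hX' k hk, ← hY' k hk]
    linear_combination hYk

/-- Polynomial identities for the Jacobian triples representing the multiples of a point. -/
theorem exists_omega {R : Type*} [CommRing R] {W : WeierstrassCurve.Affine R} {x y : R}
    (h : W.Equation x y) :
    ∃ ω : ℕ → R, ω 1 = y ∧
      (∀ k : ℕ, 1 ≤ k →
        W.toJacobian.dblXYZ ![phiVal W x y k, ω k, psiVal W x y k] =
          ![phiVal W x y (2 * k : ℕ), ω (2 * k), psiVal W x y (2 * k : ℕ)]) ∧
      (∀ k : ℕ, 1 ≤ k →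
        W.toJacobian.addXYZ ![phiVal W x y (k + 1 : ℕ), ω (k + 1), psiVal W x y (k + 1 : ℕ)]
            ![phiVal W x y k, ω k, psiVal W x y k] =
          (-1 : R) • ![phiVal W x y (2 * k + 1 : ℕ), ω (2 * k + 1),
            psiVal W x y (2 * k + 1 : ℕ)]) ∧
      (∀ k : ℕ, 1 ≤ k →
        (2 * ω k + W.a₁ * phiVal W x y k * psiVal W x y k + W.a₃ * psiVal W x y k ^ 3) *
            psiVal W x y k = psiVal W x y (2 * k)) := by
  obtain ⟨g, rfl, rfl, rfl⟩ := exists_hom_univ h
  obtain ⟨ω, h1, hd, ha, hy⟩ := exists_omega_univ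
  refine ⟨fun k => g (ω k), congrArg g h1, fun k hk => ?_, fun k hk => ?_, fun k hk => ?_⟩
  · have := congrArg (g ∘ ·) (hd k hk)
    simp only [← Jacobian.map_dblXYZ g, Jacobian.comp_fin3, ← map_psiVal, ← map_phiVal] at this
    exact this
  · have := congrArg (g ∘ ·) (ha k hk)
    simp only [← Jacobian.map_addXYZ g, Jacobian.comp_smul, map_neg, map_one, Jacobian.comp_fin3,
      ← map_psiVal, ← map_phiVal] at this
    exact this
  · have := congrArg g (hy k hk)
    simp only [map_mul, map_add, map_pow, map_ofNat, ← map_psiVal, ← map_phiVal] at this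
    simpa only [map_a₁, map_a₃] using this

end Fermat.Agent.EC
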