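/-
Multiplication by `n` on a Weierstrass curve in terms of division polynomials.
`W` is an arbitrary Weierstrass curve over a field and `(x, y)` any nonsingular point on it.
-/
import Fermat.Agent.EC.DivPolyUniversal
import Mathlib.AlgebraicGeometry.EllipticCurve.DivisionPolynomial.Degree

set_option autoImplicit false

namespace Fermat.Agent.EC

open WeierstrassCurve WeierstrassCurve.Affine Polynomial
open scoped WeierstrassCurve.Jacobian

/-- Base change preserves being elliptic. -/
instance isElliptic_baseChange {R A : Type*} [CommRing R] [CommRing A] [Algebra R A]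
    (W : WeierstrassCurve R) [W.IsElliptic] : (W.baseChange A).IsElliptic :=
  inferInstanceAs (W.map (algebraMap R A)).IsElliptic

/-- A curve with nonzero discriminant becomes elliptic over any field containing the base ring. -/
theorem isElliptic_baseChange_of_Δ_ne_zero {R L : Type*} [CommRing R] [Field L] [Algebra R L]
    [FaithfulSMul R L] (W : WeierstrassCurve R) (hW : W.Δ ≠ 0) :
    (W.baseChange L).IsElliptic := by
  refine (isElliptic_iff _).2 ?_
  rw [show (W.baseChange L).Δ = algebraMap R L W.Δ from W.map_Δ (algebraMap R L)]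
  exact isUnit_iff_ne_zero.2
    ((map_ne_zero_iff _ (FaithfulSMul.algebraMap_injective R L)).2 hW)

variable {K : Type*} [Field K] [DecidableEq K] {W : WeierstrassCurve.Affine K}

omit [DecidableEq K] in
theorem evalEval_eq_of_mk_eq {x y : K} (h : W.Equation x y) {p q : K[X][X]}
    (hpq : CoordinateRing.mk W p = CoordinateRing.mk W q) : p.evalEval x y = q.evalEval x y := by
  obtain ⟨r, hr⟩ := AdjoinRoot.mk_eq_mk.1 hpq
  have h0 : W.polynomial.evalEval x y = 0 := h
  have := congrArg (evalEvalRingHom x y) hr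
  simp only [map_sub, map_mul, coe_evalEvalRingHom, h0, zero_mul] at this
  exact sub_eq_zero.1 this

omit [DecidableEq K] in
theorem eval_ΨSq_eq_psiVal_sq {x y : K} (h : W.Equation x y) (n : ℤ) :
    (W.ΨSq n).eval x = psiVal W x y n ^ 2 := by
  have h1 : CoordinateRing.mk W (W.ψ n ^ 2) = CoordinateRing.mk W (C (W.ΨSq n)) := by
    rw [map_pow, CoordinateRing.mk_ψ, CoordinateRing.mk_Ψ_sq]
  have := evalEval_eq_of_mk_eq h h1
  rw [evalEval_pow, evalEval_C, ← psiVal_eq] at this
  exact this.symm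

omit [DecidableEq K] in
theorem evalEval_φ_eq (x y : K) (n : ℤ) : (W.φ n).evalEval x y = phiVal W x y n := by
  rw [WeierstrassCurve.φ, phiVal, psiVal_eq, psiVal_eq, psiVal_eq]
  simp only [evalEval_sub, evalEval_mul, evalEval_pow, evalEval_C, eval_X]

omit [DecidableEq K] in
theorem eval_Φ_eq_phiVal {x y : K} (h : W.Equation x y) (n : ℤ) :
    (W.Φ n).eval x = phiVal W x y n := by
  have := evalEval_eq_of_mk_eq h (CoordinateRing.mk_φ W n)
  rw [evalEval_C, evalEval_φ_eq] at this
  exact this.symm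

/-- `n • P` is represented by a nonsingular Jacobian triple `(φₙ, ωₙ, ψₙ)`. -/
theorem exists_nsmul_some_triple {x y : K} (h : W.Nonsingular x y) :
    ∀ n : ℕ, 1 ≤ n → ∃ w : K,
      (2 * w + W.a₁ * phiVal W x y n * psiVal W x y n + W.a₃ * psiVal W x y n ^ 3) *
        psiVal W x y n = psiVal W x y (2 * n) ∧
      W.toJacobian.Nonsingular ![phiVal W x y n, w, psiVal W x y n] ∧
      Jacobian.Point.toAffine W.toJacobian ![phiVal W x y n, w, psiVal W x y n] =
        n • Point.some x y h := by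
  obtain ⟨ω, hω1, hdbl, hadd, hYid⟩ := exists_omega h.1
  suffices hmain : ∀ n : ℕ, 1 ≤ n →
      W.toJacobian.Nonsingular ![phiVal W x y n, ω n, psiVal W x y n] ∧
      Jacobian.Point.toAffine W.toJacobian ![phiVal W x y n, ω n, psiVal W x y n] =
        n • Point.some x y h by
    exact fun n hn => ⟨ω n, hYid n hn, hmain n hn⟩
  intro n
  induction n using Nat.strong_induction_on with
  | _ n ih =>
    intro hn
    rcases eq_or_ne n 1 with rfl | h1
    · have e : (![phiVal W x y (1 : ℕ), ω 1, psiVal W x y (1 : ℕ)] : Fin 3 → K) = ![x, y, 1] := by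
        simp [phiVal, psiVal_one, psiVal_zero, hω1]
      have hj : W.toJacobian.Nonsingular ![x, y, 1] := (Jacobian.nonsingular_some _ _).2 h
      rw [e, one_nsmul]
      exact ⟨hj, Jacobian.Point.toAffine_some hj⟩
    rcases Nat.even_or_odd' n with ⟨k, rfl | rfl⟩
    · obtain ⟨hk, ek⟩ := ih k (by omega) (by omega)
      have hsum := Jacobian.nonsingular_add hk hk
      have esum := Jacobian.Point.toAffine_add hk hk
      rw [Jacobian.add_self, hdbl k (by omega)] at hsum esum
      refine ⟨hsum, ?_⟩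
      rw [esum, ek, ← two_nsmul, ← mul_nsmul']
    · obtain ⟨hk, ek⟩ := ih k (by omega) (by omega)
      obtain ⟨hk1, ek1⟩ := ih (k + 1) (by omega) (by omega)
      have hne : ¬(![phiVal W x y (k + 1 : ℕ), ω (k + 1), psiVal W x y (k + 1 : ℕ)] : Fin 3 → K) ≈
          ![phiVal W x y k, ω k, psiVal W x y k] := by
        intro he
        have := Jacobian.Point.toAffine_of_equiv (W := W.toJacobian) he
        rw [ek, ek1, succ_nsmul, add_eq_left] at this
        exact Point.some_ne_zero h this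
      have hsum := Jacobian.nonsingular_add hk1 hk
      have esum := Jacobian.Point.toAffine_add hk1 hk
      rw [Jacobian.add_of_not_equiv hne, hadd k (by omega)] at hsum esum
      rw [Jacobian.nonsingular_smul _ isUnit_one.neg] at hsum
      rw [Jacobian.Point.toAffine_smul _ isUnit_one.neg, ek, ek1, ← add_nsmul] at esum
      refine ⟨hsum, ?_⟩
      rw [esum]
      congr 1
      omega

theorem nsmul_some_eq_zero_iff_psiVal {x y : K} (h : W.Nonsingular x y) (n : ℕ) :
    n • Point.some x y h = 0 ↔ psiVal W x y n = 0 := by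
  rcases Nat.eq_zero_or_pos n with rfl | hn
  · simp [psiVal_zero]
  obtain ⟨w, -, hw, e⟩ := exists_nsmul_some_triple h n hn
  by_cases hz : psiVal W x y n = 0
  · exact iff_of_true (by rw [← e, Jacobian.Point.toAffine_of_Z_eq_zero hz]) hz
  · refine iff_of_false ?_ hz
    rw [← e, Jacobian.Point.toAffine_of_Z_ne_zero hw hz]
    exact Point.some_ne_zero _

/-- `n • P = 0` iff the `n`-th division polynomial vanishes at `P`. -/
theorem zsmul_some_eq_zero_iff {x y : K} (h : W.Nonsingular x y) (n : ℤ) :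
    n • (Point.some x y h) = 0 ↔ (W.ψ n).evalEval x y = 0 := by
  rw [← psiVal_eq]
  obtain ⟨m, rfl | rfl⟩ := n.eq_nat_or_neg
  · rw [natCast_zsmul]; exact nsmul_some_eq_zero_iff_psiVal h m
  · rw [neg_zsmul, natCast_zsmul, neg_eq_zero, psiVal_neg, neg_eq_zero]
    exact nsmul_some_eq_zero_iff_psiVal h m

/-- `n • P = 0` iff `ΨSqₙ(x) = 0`. -/
theorem zsmul_some_eq_zero_iff_ΨSq {x y : K} (h : W.Nonsingular x y) (n : ℤ) :
    n • (Point.some x y h) = 0 ↔ (W.ΨSq n).eval x = 0 := by
  rw [zsmul_some_eq_zero_iff h n, eval_ΨSq_eq_psiVal_sq h.1, psiVal_eq, sq_eq_zero_iff]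

/-- The same statement for natural numbers. -/
theorem nsmul_some_eq_zero_iff_ΨSq {x y : K} (h : W.Nonsingular x y) (n : ℕ) :
    n • (Point.some x y h) = 0 ↔ (W.ΨSq n).eval x = 0 := by
  rw [← natCast_zsmul, zsmul_some_eq_zero_iff_ΨSq]

theorem exists_nsmul_some_eq {x y : K} (h : W.Nonsingular x y) {n : ℕ}
    (hn : psiVal W x y n ≠ 0) :
    ∃ (x' y' : K) (h' : W.Nonsingular x' y'), n • (Point.some x y h) = Point.some x' y' h' ∧
      x' * psiVal W x y n ^ 2 = phiVal W x y n ∧
      psiTwo W x' y' * psiVal W x y n ^ 4 = psiVal W x y (2 * n) := by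
  rcases Nat.eq_zero_or_pos n with rfl | hpos
  · simp [psiVal_zero] at hn
  obtain ⟨w, hY, hw, e⟩ := exists_nsmul_some_triple h n hpos
  rw [Jacobian.Point.toAffine_of_Z_ne_zero hw hn] at e
  refine ⟨_, _, _, e.symm, ?_, ?_⟩
  · simp only [Jacobian.fin3_def_ext]
    field_simp
  · simp only [Jacobian.fin3_def_ext, psiTwo]
    field_simp
    linear_combination hY

/-- The coordinates of `n • P` when it is not zero. -/
theorem exists_zsmul_some_eq {x y : K} (h : W.Nonsingular x y) {n : ℤ}
    (hn : (W.ψ n).evalEval x y ≠ 0) :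
    ∃ (x' y' : K) (h' : W.Nonsingular x' y'), n • (Point.some x y h) = Point.some x' y' h' ∧
      x' * (W.ψ n).evalEval x y ^ 2 = (W.φ n).evalEval x y ∧
      x' * (W.ΨSq n).eval x = (W.Φ n).eval x ∧
      (2 * y' + W.a₁ * x' + W.a₃) * (W.ψ n).evalEval x y ^ 4 = (W.ψ (2 * n)).evalEval x y := by
  simp only [eval_ΨSq_eq_psiVal_sq h.1, eval_Φ_eq_phiVal h.1, evalEval_φ_eq, ← psiVal_eq] at hn ⊢
  obtain ⟨m, rfl | rfl⟩ := n.eq_nat_or_neg
  · obtain ⟨x', y', h', e, ex, ey⟩ := exists_nsmul_some_eq h hn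
    exact ⟨x', y', h', by rw [natCast_zsmul, e], ex, ex, ey⟩
  · rw [psiVal_neg, neg_ne_zero] at hn
    obtain ⟨x', y', h', e, ex, ey⟩ := exists_nsmul_some_eq h hn
    refine ⟨x', W.negY x' y', (nonsingular_neg ..).2 h',
      by rw [neg_zsmul, natCast_zsmul, e, Point.neg_some],
      by rw [psiVal_neg, phiVal_neg, neg_sq, ex], by rw [psiVal_neg, phiVal_neg, neg_sq, ex], ?_⟩
    rw [psiVal_neg, mul_neg, psiVal_neg, ← ey, psiTwo, negY]
    ring

/-- `Φₙ` and `ΨSqₙ` have no common zero at a nonsingular point. -/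
theorem Φ_eval_ne_zero_of_ΨSq_eval_eq_zero {x y : K} (h : W.Nonsingular x y) {n : ℤ}
    (hn : (W.ΨSq n).eval x = 0) : (W.Φ n).eval x ≠ 0 := by
  rcases eq_or_ne n 0 with rfl | hn0
  · simp
  rw [eval_Φ_eq_phiVal h.1]
  rw [eval_ΨSq_eq_psiVal_sq h.1, sq_eq_zero_iff] at hn
  obtain ⟨m, rfl | rfl⟩ := n.eq_nat_or_neg
  · obtain ⟨w, -, hw, -⟩ := exists_nsmul_some_triple h m (by omega)
    exact Jacobian.X_ne_zero_of_Z_eq_zero hw hn
  · rw [phiVal_neg]
    rw [psiVal_neg, neg_eq_zero] at hn
    obtain ⟨w, -, hw, -⟩ := exists_nsmul_some_triple h m (by omega)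
    exact Jacobian.X_ne_zero_of_Z_eq_zero hw hn

end Fermat.Agent.EC
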