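/-
The fibres of multiplication by `n` over an algebraically closed field.
-/
import Fermat.Agent.EC.DivPolyPoint
import Mathlib.Algebra.Module.Torsion.Basic
import Mathlib.FieldTheory.IsAlgClosed.Basic
import Mathlib.FieldTheory.Separable
import Mathlib.Algebra.Order.BigOperators.Group.Finset

set_option autoImplicit false

namespace Fermat.Agent.EC

open WeierstrassCurve WeierstrassCurve.Affine Polynomial

variable {K : Type*} [Field K] {W : WeierstrassCurve.Affine K}

/-- Over an algebraically closed field every abscissa carries a point. -/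
theorem exists_nonsingular_of_isAlgClosed [IsAlgClosed K] [W.IsElliptic] (x : K) :
    ∃ y : K, W.Nonsingular x y := by
  obtain ⟨y, hy⟩ := IsAlgClosed.exists_root
    (C 1 * X ^ 2 + C (W.a₁ * x + W.a₃) * X +
      C (-(x ^ 3 + W.a₂ * x ^ 2 + W.a₄ * x + W.a₆)) : K[X])
    (by rw [degree_quadratic one_ne_zero]; decide)
  refine ⟨y, equation_iff_nonsingular.1 ?_⟩
  simp only [IsRoot, eval_add, eval_mul, eval_C, eval_pow, eval_X] at hy
  rw [equation_iff]
  linear_combination hy

theorem natDegree_Φ_sub_C_mul_ΨSq (n : ℤ) (hn : n ≠ 0) (t : K) :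
    (W.Φ n - C t * W.ΨSq n).natDegree = n.natAbs ^ 2 := by
  refine natDegree_eq_of_le_of_coeff_ne_zero ?_ ?_
  · refine natDegree_sub_le_of_le (W.natDegree_Φ_le n) ?_ |>.trans (max_self _).le
    exact (natDegree_C_mul_le _ _).trans ((W.natDegree_ΨSq_le n).trans (Nat.sub_le _ _))
  · have hpos : 0 < n.natAbs ^ 2 := pow_pos (Int.natAbs_pos.2 hn) 2
    rw [coeff_sub, coeff_C_mul, W.coeff_Φ,
      coeff_eq_zero_of_natDegree_lt (lt_of_le_of_lt (W.natDegree_ΨSq_le n) (by omega)),
      mul_zero, sub_zero]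
    exact one_ne_zero

/-- The Wronskian of `Φₙ` and `ΨSqₙ` is nonzero when `n` is invertible. -/
theorem wronskian_ne_zero {n : ℕ} (hn : (n : K) ≠ 0) :
    derivative (W.Φ n) * W.ΨSq n - W.Φ n * derivative (W.ΨSq n) ≠ 0 := by
  intro h0
  rcases Nat.lt_or_ge n 2 with h2 | h2
  · have h1 : n = 1 := by
      rcases Nat.eq_zero_or_pos n with rfl | h
      · simp at hn
      · omega
    subst h1
    simp at h0
  obtain ⟨m, hm⟩ : ∃ m, n ^ 2 = m + 2 := ⟨n ^ 2 - 2, by
    have : 2 ^ 2 ≤ n ^ 2 := Nat.pow_le_pow_left h2 2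
    omega⟩
  have dΦ : (W.Φ n).natDegree ≤ m + 2 := by simp [hm]
  have cΦ : (W.Φ n).coeff (m + 2) = 1 := by simpa [hm] using W.coeff_Φ n
  have dΨ : (W.ΨSq n).natDegree ≤ m + 1 := by simpa [hm] using W.natDegree_ΨSq_le n
  have cΨ : (W.ΨSq n).coeff (m + 1) = (n : K) ^ 2 := by simpa [hm] using W.coeff_ΨSq n
  have dΦ' : (derivative (W.Φ n)).natDegree ≤ m + 1 :=
    (natDegree_derivative_le _).trans (by omega)
  have dΨ' : (derivative (W.ΨSq n)).natDegree ≤ m :=
    (natDegree_derivative_le _).trans (by omega)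
  have c := congrArg (fun p : K[X] => p.coeff (m + 1 + (m + 1))) h0
  rw [coeff_sub, coeff_mul_add_eq_of_natDegree_le dΦ' dΨ, show m + 1 + (m + 1) = m + 2 + m by ring,
    coeff_mul_add_eq_of_natDegree_le dΦ dΨ', coeff_derivative, coeff_derivative, cΦ, cΨ,
    coeff_zero] at c
  apply pow_ne_zero 2 hn
  push_cast at c
  linear_combination c

variable [DecidableEq K] [IsAlgClosed K] [W.IsElliptic]

omit [IsAlgClosed K] [W.IsElliptic] in
/-- For a point of abscissa `r` with `Φₙ(r) = t ΨSqₙ(r)`, the `n`-th multiple has abscissa `t`. -/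
theorem exists_nsmul_eq_some_of_root {n : ℕ} {r s : K} (hr : W.Nonsingular r s) {t : K}
    (ht : (W.Φ n).eval r = t * (W.ΨSq n).eval r) :
    ∃ (u : K) (h : W.Nonsingular t u), n • Point.some r s hr = Point.some t u h := by
  have hne : (W.ΨSq n).eval r ≠ 0 := fun h0 =>
    Φ_eval_ne_zero_of_ΨSq_eval_eq_zero hr h0 (by rw [ht, h0, mul_zero])
  have hψ : (W.ψ (n : ℤ)).evalEval r s ≠ 0 := fun h0 => hne <| by
    rw [eval_ΨSq_eq_psiVal_sq hr.1, psiVal_eq, h0]; ring
  obtain ⟨x', y', h', e, -, ex, -⟩ := exists_zsmul_some_eq hr hψ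
  rw [ht] at ex
  obtain rfl := mul_right_cancel₀ hne ex
  rw [natCast_zsmul] at e
  exact ⟨y', h', e⟩

/-- Multiplication by a positive integer is surjective. -/
theorem nsmul_surjective_of_isAlgClosed {n : ℕ} (hn : n ≠ 0) :
    Function.Surjective fun P : W.Point => n • P := by
  rintro (_ | ⟨t, u, h⟩)
  · exact ⟨0, nsmul_zero n⟩
  · obtain ⟨r, hr⟩ := IsAlgClosed.exists_root (W.Φ n - C t * W.ΨSq n) <| by
      intro h0
      have h2 := natDegree_Φ_sub_C_mul_ΨSq (W := W) (n : ℤ) (by omega) t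
      rw [natDegree_eq_of_degree_eq_some h0, Int.natAbs_natCast] at h2
      exact pow_ne_zero 2 hn h2.symm
    simp only [IsRoot, eval_sub, eval_mul, eval_C, sub_eq_zero] at hr
    obtain ⟨s, hs⟩ := exists_nonsingular_of_isAlgClosed (W := W) r
    obtain ⟨u', h', e⟩ := exists_nsmul_eq_some_of_root hs hr
    rcases (Point.X_eq_iff (h₁ := h') (h₂ := h)).1 rfl with e' | e'
    · exact ⟨_, e.trans e'⟩
    · refine ⟨-Point.some r s hs, ?_⟩
      show n • -Point.some r s hs = _
      rw [smul_neg, e, e', neg_neg]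

/-- The kernel of multiplication by `n` has `n²` elements. -/
theorem card_nsmul_eq_zero {n : ℕ} (hn : (n : K) ≠ 0) :
    Nat.card {P : W.Point // n • P = 0} = n ^ 2 := by
  classical
  have hn0 : n ≠ 0 := by rintro rfl; simp at hn
  set Wr := derivative (W.Φ n) * W.ΨSq n - W.Φ n * derivative (W.ΨSq n) with hWr
  have hfin : ({t : K | ∃ r, Wr.IsRoot r ∧ (W.Φ n).eval r / (W.ΨSq n).eval r = t} ∪
      {t : K | W.Ψ₂Sq.IsRoot t}).Finite := by
    refine Set.Finite.union ?_ (finite_setOfPred_isRoot ?_)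
    · exact (finite_setOfPred_isRoot (wronskian_ne_zero hn)).image
        (fun r => (W.Φ n).eval r / (W.ΨSq n).eval r)
    · intro h0
      have h4 := W.coeff_Ψ₂Sq
      rw [h0, coeff_zero] at h4
      have h2 : (2 : K) = 0 := by
        have : (2 : K) * 2 = 0 := by linear_combination -h4
        exact mul_self_eq_zero.1 this
      apply W.isUnit_Δ.ne_zero
      have e2 : W.Ψ₂Sq.coeff 2 = W.b₂ := by simp [WeierstrassCurve.Ψ₂Sq]
      have e0 : W.Ψ₂Sq.coeff 0 = W.b₆ := by simp [WeierstrassCurve.Ψ₂Sq]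
      rw [h0, coeff_zero] at e2 e0
      simp only [WeierstrassCurve.Δ, ← e2, ← e0]
      linear_combination (-4 * W.b₄ ^ 3) * h2
  obtain ⟨t, ht⟩ := hfin.exists_notMem
  simp only [Set.mem_union, Set.mem_ofPred_eq, not_or, not_exists, not_and] at ht
  obtain ⟨ht1, ht2⟩ := ht
  obtain ⟨u, hu⟩ := exists_nonsingular_of_isAlgClosed (W := W) t
  have hneg : Point.some t u hu ≠ -Point.some t u hu := by
    intro e
    rw [Point.neg_some, Point.some.injEq] at e
    apply ht2
    rw [IsRoot, ← psiTwo_sq W hu.1, psiTwo]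
    have e' := e.2
    simp only [negY] at e'
    linear_combination (2 * u + W.a₁ * t + W.a₃) * e'
  set F := W.Φ n - C t * W.ΨSq n with hF
  have hdeg : F.natDegree = n ^ 2 := by
    simpa [-ΨSq_ofNat] using natDegree_Φ_sub_C_mul_ΨSq (W := W) (n : ℤ) (by omega) t
  have hF0 : F ≠ 0 := ne_zero_of_natDegree_gt (n := 0) (by
    rw [hdeg]; exact pow_pos (Nat.pos_of_ne_zero hn0) 2)
  have hnodup : F.roots.Nodup := by
    rw [Multiset.nodup_iff_count_le_one]
    intro r
    rw [count_roots]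
    by_contra hlt
    obtain ⟨h1, h2⟩ := (one_lt_rootMultiplicity_iff_isRoot hF0).1 (not_le.1 hlt)
    simp only [hF, IsRoot, eval_sub, eval_mul, eval_C, sub_eq_zero, derivative_sub,
      derivative_C_mul] at h1 h2
    obtain ⟨s, hs⟩ := exists_nonsingular_of_isAlgClosed (W := W) r
    have hne : (W.ΨSq n).eval r ≠ 0 := fun h0 =>
      Φ_eval_ne_zero_of_ΨSq_eval_eq_zero hs h0 (by rw [h1, h0, mul_zero])
    refine ht1 r ?_ ?_
    · simp only [hWr, IsRoot, eval_sub, eval_mul, h1, h2]
      ring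
    · rw [h1, mul_div_cancel_right₀ _ hne]
  have hcard : F.roots.toFinset.card = n ^ 2 := by
    rw [Multiset.toFinset_card_of_nodup hnodup, IsAlgClosed.card_roots_eq_natDegree, hdeg]
  obtain ⟨P₀, hP₀⟩ := nsmul_surjective_of_isAlgClosed (W := W) hn0 (Point.some t u hu)
  replace hP₀ : n • P₀ = Point.some t u hu := hP₀
  let e1 : {P : W.Point // n • P = 0} ≃ {P : W.Point // n • P = Point.some t u hu} :=
    (Equiv.addRight P₀).subtypeEquiv fun P => by simp [hP₀]
  have hxy : ∀ P : {P : W.Point // n • P = Point.some t u hu}, ∃ r : {r // r ∈ F.roots.toFinset},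
      ∃ (s : K) (h : W.Nonsingular r s), P.1 = Point.some (r : K) s h := by
    rintro ⟨_ | ⟨r, s, h⟩, hP⟩
    · rw [← Point.zero_def, nsmul_zero] at hP
      exact absurd hP.symm (Point.some_ne_zero hu)
    have hψ : (W.ψ (n : ℤ)).evalEval r s ≠ 0 := by
      intro h0
      rw [← zsmul_some_eq_zero_iff h, natCast_zsmul, hP] at h0
      exact Point.some_ne_zero hu h0
    obtain ⟨x', y', h', e, -, ex, -⟩ := exists_zsmul_some_eq h hψ
    rw [natCast_zsmul, hP, Point.some.injEq] at e
    obtain ⟨rfl, rfl⟩ := e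
    exact ⟨⟨r, Multiset.mem_toFinset.2 <| (mem_roots hF0).2 <| by
      simp only [hF, IsRoot, eval_sub, eval_mul, eval_C, ← ex, sub_self]⟩, s, h, rfl⟩
  choose g sy hg hgP using hxy
  have hbij : Function.Bijective g := by
    constructor
    · intro P P' hPP'
      apply Subtype.ext
      rcases (Point.X_eq_iff (h₁ := hg P) (h₂ := hg P')).1 (by rw [hPP']) with e | e
      · rw [hgP P, hgP P', e]
      · rw [← hgP P, ← hgP P'] at e
        have := P.2
        rw [e, smul_neg, P'.2] at this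
        exact absurd this.symm hneg
    · rintro ⟨r, hr⟩
      have hr' : (W.Φ n).eval r = t * (W.ΨSq n).eval r := by
        simpa [hF, sub_eq_zero, -ΨSq_ofNat] using (mem_roots hF0).1 (Multiset.mem_toFinset.1 hr)
      obtain ⟨s, hs⟩ := exists_nonsingular_of_isAlgClosed (W := W) r
      obtain ⟨u', h', e⟩ := exists_nsmul_eq_some_of_root hs hr'
      rcases (Point.X_eq_iff (h₁ := h') (h₂ := hu)).1 rfl with e' | e'
      · have h := hgP ⟨_, e.trans e'⟩
        rw [Point.some.injEq] at h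
        exact ⟨_, Subtype.ext h.1.symm⟩
      · have h := hgP ⟨-Point.some r s hs, by rw [smul_neg, e, e', neg_neg]⟩
        simp only [Point.neg_some, Point.some.injEq] at h
        exact ⟨_, Subtype.ext h.1.symm⟩
  rw [Nat.card_congr (e1.trans (Equiv.ofBijective g hbij)), Nat.card_eq_fintype_card,
    Fintype.card_coe, hcard]

end Fermat.Agent.EC
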