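/-
The `n`-torsion of an elliptic curve over a field in which `n` is invertible.
-/
import Fermat.Agent.EC.TorsionFibre
import Mathlib.FieldTheory.IsAlgClosed.AlgebraicClosure
import Fermat.Prelude.Def_FLTPrelim_GaloisRep

set_option autoImplicit false

namespace Fermat.Agent.EC

open WeierstrassCurve WeierstrassCurve.Affine Polynomial

variable {K : Type*} [Field K] [DecidableEq K] {W : WeierstrassCurve.Affine K} [W.IsElliptic]

omit [W.IsElliptic] in
theorem mem_torsionBy_iff_nsmul {n : ℕ} {P : W.Point} :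
    P ∈ Submodule.torsionBy ℤ W.Point n ↔ n • P = 0 := by
  rw [Submodule.mem_torsionBy_iff, natCast_zsmul]

/-- Multiplication by a nonzero integer is surjective over an algebraically closed field. -/
theorem zsmul_surjective [IsAlgClosed K] {n : ℤ} (hn : n ≠ 0) :
    Function.Surjective fun P : W.Point => n • P := by
  intro Q
  obtain ⟨m, rfl | rfl⟩ := n.eq_nat_or_neg
  · obtain ⟨P, hP⟩ := nsmul_surjective_of_isAlgClosed (n := m) (by omega) Q
    exact ⟨P, (natCast_zsmul P m).trans hP⟩
  · obtain ⟨P, hP⟩ := nsmul_surjective_of_isAlgClosed (n := m) (by omega) (-Q)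
    refine ⟨P, ?_⟩
    show (-(m : ℤ)) • P = Q
    rw [neg_zsmul, natCast_zsmul, show m • P = -Q from hP, neg_neg]

/-- `#E[n] = n²`. -/
theorem card_torsionBy [IsAlgClosed K] {n : ℕ} (hn : (n : K) ≠ 0) :
    Nat.card (Submodule.torsionBy ℤ W.Point n) = n ^ 2 := by
  rw [← card_nsmul_eq_zero (W := W) hn]
  exact Nat.card_congr (Equiv.subtypeEquivRight fun P => mem_torsionBy_iff_nsmul)

omit [W.IsElliptic] in
theorem exists_injective_torsionBy_map {n : ℕ} (L : Type*) [Field L] [DecidableEq L] [Algebra K L] :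
    ∃ f : Submodule.torsionBy ℤ W.Point n →
        Submodule.torsionBy ℤ (WeierstrassCurve.Affine.baseChange W L).Point n,
      Function.Injective f := by
  have hinj := FaithfulSMul.algebraMap_injective K L
  have key : ∀ {x y : K}, ∀ h : W.Nonsingular x y, n • Point.some x y h = 0 →
      ∃ h' : (WeierstrassCurve.Affine.baseChange W L).Nonsingular (algebraMap K L x)
          (algebraMap K L y),
        n • Point.some _ _ h' = 0 := by
    intro x y h h0
    refine ⟨(W.map_nonsingular hinj x y).2 h, ?_⟩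
    rw [nsmul_some_eq_zero_iff_ΨSq] at h0 ⊢
    rw [show ((WeierstrassCurve.Affine.baseChange W L).ΨSq n) =
      (W.ΨSq n).map (algebraMap K L) from W.map_ΨSq (algebraMap K L) n, eval_map_apply, h0,
      map_zero]
  refine ⟨fun P => match P with
    | ⟨.zero, _⟩ => 0
    | ⟨.some x y h, hP⟩ => ⟨Point.some _ _ (key h (mem_torsionBy_iff_nsmul.1 hP)).1,
        mem_torsionBy_iff_nsmul.2 (key h (mem_torsionBy_iff_nsmul.1 hP)).2⟩, ?_⟩
  rintro ⟨_ | ⟨x, y, h⟩, hP⟩ ⟨_ | ⟨x', y', h'⟩, hP'⟩ he
  · rfl
  · exact absurd (Subtype.ext_iff.1 he).symm (Point.some_ne_zero _)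
  · exact absurd (Subtype.ext_iff.1 he) (Point.some_ne_zero _)
  · simp only [Subtype.ext_iff, Point.some.injEq] at he ⊢
    exact ⟨hinj he.1, hinj he.2⟩

/-- `E[n]` is finite over any field in which `n` is invertible. -/
theorem finite_torsionBy {n : ℕ} (hn : (n : K) ≠ 0) :
    Finite (Submodule.torsionBy ℤ W.Point n) := by
  classical
  obtain ⟨f, hf⟩ := exists_injective_torsionBy_map (W := W) (n := n) (AlgebraicClosure K)
  have hn' : (n : AlgebraicClosure K) ≠ 0 := by
    rw [← map_natCast (algebraMap K (AlgebraicClosure K))]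
    exact (_root_.map_ne_zero _).2 hn
  have : Finite (Submodule.torsionBy ℤ
      (WeierstrassCurve.Affine.baseChange W (AlgebraicClosure K)).Point n) :=
    Nat.finite_of_card_ne_zero <| by
      rw [card_torsionBy hn']
      exact pow_ne_zero 2 (by rintro rfl; simp at hn)
  exact Finite.of_injective f hf

/-- Over any field the `n`-torsion has at most `n²` points (`n` invertible). -/
theorem card_torsionBy_le {n : ℕ} (hn : (n : K) ≠ 0) :
    Nat.card (Submodule.torsionBy ℤ W.Point n) ≤ n ^ 2 := by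
  classical
  obtain ⟨f, hf⟩ := exists_injective_torsionBy_map (W := W) (n := n) (AlgebraicClosure K)
  have hn' : (n : AlgebraicClosure K) ≠ 0 := by
    rw [← map_natCast (algebraMap K (AlgebraicClosure K))]
    exact (_root_.map_ne_zero _).2 hn
  rw [← card_torsionBy (W := WeierstrassCurve.Affine.baseChange W (AlgebraicClosure K)) hn']
  have : Finite (Submodule.torsionBy ℤ
      (WeierstrassCurve.Affine.baseChange W (AlgebraicClosure K)).Point n) :=
    Nat.finite_of_card_ne_zero <| by
      rw [card_torsionBy hn']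
      exact pow_ne_zero 2 (by rintro rfl; simp at hn)
  exact Nat.card_le_card_of_injective f hf

omit [DecidableEq K] [W.IsElliptic] in
theorem eval_ΨSq_natCast (n : ℕ) (x : K) : (W.ΨSq n).eval x =
    (W.preΨ' n).eval x ^ 2 * if Even n then W.Ψ₂Sq.eval x else 1 := by
  rw [ΨSq_ofNat]
  split_ifs <;> simp

/-- Over an algebraically closed field `preΨ'ₙ` has simple roots, none of them in `E[2]`. -/
theorem preΨ'_separable_and_disjoint [IsAlgClosed K] {n : ℕ} (hn : (n : K) ≠ 0) :
    (W.preΨ' n).Separable ∧ ∀ r, (W.preΨ' n).eval r = 0 → W.Ψ₂Sq.eval r ≠ 0 := by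
  classical
  have hn0 : n ≠ 0 := by rintro rfl; simp at hn
  set p := W.preΨ' n with hp
  have hp0 : p ≠ 0 := W.preΨ'_ne_zero hn
  set g := if Even n then 4 else 1 with hg
  have hdeg : p.natDegree = (n ^ 2 - g) / 2 := W.natDegree_preΨ' hn
  have : Finite (Submodule.torsionBy ℤ W.Point n) := finite_torsionBy hn
  have : Finite {P : W.Point // n • P = 0} :=
    Finite.of_equiv _ (Equiv.subtypeEquivRight fun P => mem_torsionBy_iff_nsmul)
  have hfin : {P : W.Point | n • P = 0}.Finite :=
    (‹Finite {P : W.Point // n • P = 0}› : Finite ({P : W.Point | n • P = 0} : Set W.Point))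
  let T := hfin.toFinset
  have hT : T.card = n ^ 2 := by
    rw [← card_nsmul_eq_zero (W := W) hn, ← Nat.card_eq_finsetCard]
    exact Nat.card_congr (Equiv.subtypeEquivRight fun P => hfin.mem_toFinset)
  let A := T.filter fun P => 2 • P ≠ 0
  let B := T.filter fun P => 2 • P = 0
  have hAB : B.card + A.card = T.card := Finset.card_filter_add_card_filter_not _
  have hB : B.card = g := by
    rcases Nat.even_or_odd n with he | ho
    · rw [hg, if_pos he]
      have h2 : ((2 : ℕ) : K) ≠ 0 := by
        obtain ⟨m, rfl⟩ := he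
        intro h2; apply hn; push_cast at h2 ⊢; linear_combination (m : K) * h2
      rw [show 4 = 2 ^ 2 by rfl, ← card_nsmul_eq_zero (W := W) h2, ← Nat.card_eq_finsetCard]
      refine Nat.card_congr (Equiv.subtypeEquivRight fun P => ?_)
      simp only [B, T, Finset.mem_filter, Set.Finite.mem_toFinset, Set.mem_ofPred_eq, and_iff_right_iff_imp]
      intro h
      obtain ⟨m, rfl⟩ := he
      rw [show m + m = 2 * m by ring, mul_nsmul, h, nsmul_zero]
    · rw [hg, if_neg (Nat.not_even_iff_odd.2 ho), Finset.card_eq_one]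
      refine ⟨0, Finset.ext fun P => ?_⟩
      simp only [B, T, Finset.mem_filter, Set.Finite.mem_toFinset, Set.mem_ofPred_eq, Finset.mem_singleton]
      constructor
      · rintro ⟨h1, h2⟩
        obtain ⟨m, rfl⟩ := ho
        rwa [add_nsmul, mul_nsmul, h2, nsmul_zero, zero_add, one_nsmul] at h1
      · rintro rfl; simp
  let xc : W.Point → K := fun P => match P with | .zero => 0 | .some x _ _ => x
  have hA : ∀ P ∈ A, xc P ∈ p.roots.toFinset ∧ W.Ψ₂Sq.eval (xc P) ≠ 0 := by
    intro P hP
    simp only [A, T, Finset.mem_filter, Set.Finite.mem_toFinset, Set.mem_ofPred_eq] at hP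
    rcases P with _ | ⟨x, y, h⟩
    · exact absurd (nsmul_zero 2) hP.2
    obtain ⟨h1, h2⟩ := hP
    rw [nsmul_some_eq_zero_iff_ΨSq, eval_ΨSq_natCast] at h1
    rw [ne_eq, nsmul_some_eq_zero_iff_ΨSq, Nat.cast_two, ΨSq_two] at h2
    refine ⟨Multiset.mem_toFinset.2 ((mem_roots hp0).2 ?_), h2⟩
    rcases mul_eq_zero.1 h1 with h | h
    · exact pow_eq_zero_iff two_ne_zero |>.1 h
    · split_ifs at h
      · exact absurd h h2
      · exact absurd h one_ne_zero
  have hle : A.card ≤ 2 * (A.image xc).card := by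
    refine Finset.card_le_mul_card_image A 2 fun r hr => ?_
    obtain ⟨P, hP, rfl⟩ := Finset.mem_image.1 hr
    refine (Finset.card_le_card (t := {P, -P}) fun Q hQ => ?_).trans Finset.card_le_two
    rw [Finset.mem_filter] at hQ
    simp only [A, Finset.mem_filter] at hP hQ
    rcases P with _ | ⟨x, y, h⟩
    · exact absurd (nsmul_zero 2) hP.2
    rcases Q with _ | ⟨x', y', h'⟩
    · exact absurd (nsmul_zero 2) hQ.1.2
    rw [Finset.mem_insert, Finset.mem_singleton]
    exact (Point.X_eq_iff (h₁ := h') (h₂ := h)).1 hQ.2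
  have hsub : A.image xc ⊆ p.roots.toFinset := fun r hr => by
    obtain ⟨P, hP, rfl⟩ := Finset.mem_image.1 hr
    exact (hA P hP).1
  have h1 := Finset.card_le_card hsub
  have h2 := Multiset.toFinset_card_le p.roots
  have h3 : p.roots.card = p.natDegree := IsAlgClosed.card_roots_eq_natDegree
  have heq : A.image xc = p.roots.toFinset := Finset.eq_of_subset_of_card_le hsub (by omega)
  refine ⟨(nodup_roots_iff_of_splits hp0 (IsAlgClosed.splits p)).1
    (Multiset.toFinset_card_eq_card_iff_nodup.1 (by omega)), fun r hr => ?_⟩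
  obtain ⟨P, hP, rfl⟩ := Finset.mem_image.1
    (heq.symm ▸ Multiset.mem_toFinset.2 ((mem_roots hp0).2 hr) : r ∈ A.image xc)
  exact (hA P hP).2

omit [DecidableEq K] in
/-- `preΨ'ₙ` is separable when `n` is invertible: the `x`-coordinates of torsion points are
distinct. -/
theorem separable_preΨ' {n : ℕ} (hn : (n : K) ≠ 0) : (W.preΨ' n).Separable := by
  classical
  have hn' : (n : AlgebraicClosure K) ≠ 0 := by
    rw [← map_natCast (algebraMap K (AlgebraicClosure K))]
    exact (_root_.map_ne_zero _).2 hn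
  rw [← separable_map (algebraMap K (AlgebraicClosure K)), ← map_preΨ']
  exact (preΨ'_separable_and_disjoint
    (W := WeierstrassCurve.Affine.baseChange W (AlgebraicClosure K)) hn').1

omit [DecidableEq K] in
/-- `preΨ'ₙ` and `Ψ₂Sq` are coprime when `n` is invertible. -/
theorem isCoprime_preΨ'_Ψ₂Sq {n : ℕ} (hn : (n : K) ≠ 0) :
    IsCoprime (W.preΨ' n) W.Ψ₂Sq := by
  classical
  have hn' : (n : AlgebraicClosure K) ≠ 0 := by
    rw [← map_natCast (algebraMap K (AlgebraicClosure K))]
    exact (_root_.map_ne_zero _).2 hn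
  refine (Polynomial.isCoprime_iff_aeval_ne_zero_of_isAlgClosed K (AlgebraicClosure K) _ _).2
    fun a => ?_
  by_contra hc
  simp only [not_or, not_not, aeval_def, ← eval_map, ← map_preΨ', ← map_Ψ₂Sq] at hc
  exact (preΨ'_separable_and_disjoint
    (W := WeierstrassCurve.Affine.baseChange W (AlgebraicClosure K)) hn').2 a hc.1 hc.2

/-- Roots of `preΨ'ₙ` are exactly the `x`-coordinates of `n`-torsion points outside `E[2]`. -/
theorem preΨ'_eval_eq_zero_iff {x y : K} (h : W.Nonsingular x y) {n : ℕ} (hn : (n : K) ≠ 0) :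
    (W.preΨ' n).eval x = 0 ↔ n • (Point.some x y h) = 0 ∧ 2 • (Point.some x y h) ≠ 0 := by
  rw [ne_eq, nsmul_some_eq_zero_iff_ΨSq, nsmul_some_eq_zero_iff_ΨSq, Nat.cast_two, ΨSq_two,
    eval_ΨSq_natCast]
  constructor
  · intro h0
    refine ⟨by rw [h0]; ring, fun h2 => ?_⟩
    obtain ⟨a, b, hab⟩ := isCoprime_preΨ'_Ψ₂Sq (W := W) hn
    have := congrArg (eval x) hab
    simp [h0, h2] at this
  · rintro ⟨h1, h2⟩
    rcases mul_eq_zero.1 h1 with h | h
    · exact pow_eq_zero_iff two_ne_zero |>.1 h
    · split_ifs at h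
      · exact absurd h h2
      · exact absurd h one_ne_zero

end Fermat.Agent.EC
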