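/-
A finite module over `ZMod n` with `d²` elements killed by each `d ∣ n` is free of rank two.
-/
import Mathlib.GroupTheory.Exponent
import Mathlib.GroupTheory.QuotientGroup.Basic
import Mathlib.GroupTheory.Coset.Card
import Mathlib.LinearAlgebra.StdBasis
import Mathlib.Algebra.Module.ZMod

set_option autoImplicit false

namespace Fermat.Agent.EC

theorem exists_addOrderOf_eq_of_forall_card {M : Type*} [AddCommGroup M] [Finite M] {n : ℕ}
    (hn : n ≠ 0) (hM : ∀ z : M, n • z = 0)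
    (hcard : ∀ d : ℕ, d ∣ n → Nat.card {z : M // d • z = 0} = d ^ 2) :
    ∃ x : M, addOrderOf x = n := by
  have he : AddMonoid.exponent M ∣ n := AddMonoid.exponent_dvd_of_forall_nsmul_eq_zero hM
  obtain ⟨x, hx⟩ := AddMonoid.exists_addOrderOf_eq_exponent (G := M) AddMonoid.ExponentExists.of_finite
  refine ⟨x, hx.trans ?_⟩
  have h1 := hcard _ he
  rw [Nat.card_congr (Equiv.subtypeUnivEquiv fun z => AddMonoid.exponent_nsmul_eq_zero z)] at h1
  have h2 := hcard n dvd_rfl
  rw [Nat.card_congr (Equiv.subtypeUnivEquiv hM)] at h2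
  exact Nat.pow_left_injective two_ne_zero (h1.symm.trans h2)

theorem exists_independent_of_forall_card {M : Type*} [AddCommGroup M] [Finite M] {n : ℕ}
    (hn : n ≠ 0) (hM : ∀ z : M, n • z = 0)
    (hcard : ∀ d : ℕ, d ∣ n → Nat.card {z : M // d • z = 0} = d ^ 2) :
    ∃ x y : M, addOrderOf x = n ∧ ∀ a b : ℕ, a • x + b • y = 0 → n ∣ a ∧ n ∣ b := by
  obtain ⟨x, hx⟩ := exists_addOrderOf_eq_of_forall_card hn hM hcard
  refine ⟨x, ?_⟩
  set H := AddSubgroup.zmultiples x with hH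
  have hQn : Nat.card (M ⧸ H) = n := by
    have h2 := hcard n dvd_rfl
    rw [Nat.card_congr (Equiv.subtypeUnivEquiv hM),
      AddSubgroup.card_eq_card_quotient_mul_card_addSubgroup H, hH, Nat.card_zmultiples, hx,
      ← hH, sq] at h2
    exact mul_right_cancel₀ hn h2
  set e := AddMonoid.exponent (M ⧸ H) with he
  have hen : e ∣ n := AddMonoid.exponent_dvd_of_forall_nsmul_eq_zero fun q => by
    obtain ⟨z, rfl⟩ := QuotientAddGroup.mk_surjective q
    rw [← QuotientAddGroup.mk_nsmul, hM z]; rfl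
  obtain ⟨k, hk⟩ := hen
  -- lifts killed by `e`
  have hlift : ∀ z : M, ∃ h ∈ H, e • (z - h) = 0 := by
    intro z
    have : ((e • z : M) : M ⧸ H) = 0 := by
      rw [QuotientAddGroup.mk_nsmul]; exact AddMonoid.exponent_nsmul_eq_zero _
    obtain ⟨a, ha⟩ := AddSubgroup.mem_zmultiples_iff.1
      ((QuotientAddGroup.eq_zero_iff _).1 this)
    have h0 : ((k : ℤ) * a) • x = 0 := by
      rw [mul_zsmul, ha, natCast_zsmul, ← mul_nsmul', mul_comm, ← hk, hM]
    rw [← addOrderOf_dvd_iff_zsmul_eq_zero, hx] at h0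
    have hk0 : k ≠ 0 := by rintro rfl; simp at hk; exact hn hk
    obtain ⟨c, hc⟩ : (e : ℤ) ∣ a := by
      rw [show ((n : ℕ) : ℤ) = (k : ℤ) * e by rw [hk]; push_cast; ring] at h0
      exact Int.dvd_of_mul_dvd_mul_left (by exact_mod_cast hk0) h0
    refine ⟨c • x, AddSubgroup.mem_zmultiples_iff.2 ⟨c, rfl⟩, ?_⟩
    rw [nsmul_sub, ← ha, hc, mul_zsmul, natCast_zsmul, sub_self]
  let Me : AddSubgroup M := (nsmulAddMonoidHom e : M →+ M).ker
  have hMe : Nat.card Me = e ^ 2 := hcard e ⟨k, hk⟩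
  let f : Me →+ M ⧸ H := (QuotientAddGroup.mk' H).comp Me.subtype
  have hf : Function.Surjective f := fun q => by
    obtain ⟨z, rfl⟩ := QuotientAddGroup.mk_surjective q
    obtain ⟨h, hh, hh0⟩ := hlift z
    refine ⟨⟨z - h, hh0⟩, ?_⟩
    show ((z - h : M) : M ⧸ H) = z
    rw [QuotientAddGroup.mk_sub, (QuotientAddGroup.eq_zero_iff h).2 hh, sub_zero]
  have hkmem : e • (k • x) = 0 := by rw [← mul_nsmul', ← hk, hM]
  let v : Me := ⟨k • x, hkmem⟩
  have hvker : v ∈ f.ker := by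
    show ((k • x : M) : M ⧸ H) = 0
    exact (QuotientAddGroup.eq_zero_iff _).2 (nsmul_mem (AddSubgroup.mem_zmultiples x) k)
  have hv : addOrderOf v = e := by
    rw [← addOrderOf_injective Me.subtype Me.subtype_injective]
    show addOrderOf (k • x) = e
    have hk0 : k ≠ 0 := by rintro rfl; simp at hk; exact hn hk
    rw [addOrderOf_nsmul' x hk0, hx, hk, Nat.gcd_mul_left_left,
      Nat.mul_div_cancel _ (Nat.pos_of_ne_zero hk0)]
  have hkercard : e ≤ Nat.card f.ker := by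
    rw [← hv, ← Nat.card_zmultiples]
    exact AddSubgroup.card_le_of_le (AddSubgroup.zmultiples_le.2 hvker)
  have hprod := f.ker.card_eq_card_quotient_mul_card_addSubgroup
  rw [Nat.card_congr (QuotientAddGroup.quotientKerEquivOfSurjective f hf).toEquiv, hQn, hMe,
    sq] at hprod
  have hne : e = n := by
    refine le_antisymm (Nat.le_of_dvd (Nat.pos_of_ne_zero hn) ⟨k, hk⟩) ?_
    have hepos : 0 < e := Nat.pos_of_ne_zero fun h => hn (by rw [hk, h, zero_mul])
    exact Nat.le_of_mul_le_mul_right (by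
      calc n * e ≤ n * Nat.card f.ker := Nat.mul_le_mul_left n hkercard
        _ = e * e := hprod.symm) hepos
  obtain ⟨q, hq⟩ := AddMonoid.exists_addOrderOf_eq_exponent (G := M ⧸ H) AddMonoid.ExponentExists.of_finite
  obtain ⟨y, rfl⟩ := QuotientAddGroup.mk_surjective q
  refine ⟨y, hx, fun a b hab => ?_⟩
  have hb : n ∣ b := by
    rw [← hne, he, ← hq, addOrderOf_dvd_iff_nsmul_eq_zero, ← QuotientAddGroup.mk_nsmul,
      QuotientAddGroup.eq_zero_iff]
    rw [← eq_neg_of_add_eq_zero_right hab |>.symm]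
    exact neg_mem (nsmul_mem (AddSubgroup.mem_zmultiples x) a)
  refine ⟨?_, hb⟩
  obtain ⟨c, rfl⟩ := hb
  rw [mul_nsmul, hM, nsmul_zero, add_zero] at hab
  rw [← hx]
  exact addOrderOf_dvd_iff_nsmul_eq_zero.2 hab

theorem nonempty_linearEquiv_fin_two_of_card {n : ℕ} (hn : n ≠ 0) {M : Type*} [AddCommGroup M]
    [Finite M] [Module (ZMod n) M]
    (hcard : ∀ d : ℕ, d ∣ n → Nat.card {z : M // d • z = 0} = d ^ 2) :
    Nonempty (M ≃ₗ[ZMod n] (Fin 2 → ZMod n)) := by
  haveI : NeZero n := ⟨hn⟩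
  have hM : ∀ z : M, n • z = 0 := fun z => by
    rw [← Nat.cast_smul_eq_nsmul (ZMod n), ZMod.natCast_self, zero_smul]
  obtain ⟨x, y, -, hxy⟩ := exists_independent_of_forall_card hn hM hcard
  let φ : (Fin 2 → ZMod n) →ₗ[ZMod n] M :=
    LinearMap.smulRight (LinearMap.proj 0) x + LinearMap.smulRight (LinearMap.proj 1) y
  have hinj : Function.Injective φ := by
    rw [← LinearMap.ker_eq_bot, LinearMap.ker_eq_bot']
    intro v hv
    have hv' : (v 0).val • x + (v 1).val • y = 0 := by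
      rw [← Nat.cast_smul_eq_nsmul (ZMod n), ← Nat.cast_smul_eq_nsmul (ZMod n) (v 1).val,
        ZMod.natCast_zmod_val, ZMod.natCast_zmod_val]
      exact hv
    obtain ⟨h0, h1⟩ := hxy _ _ hv'
    funext i
    fin_cases i
    · show v 0 = 0
      rw [← ZMod.natCast_zmod_val (v 0)]; exact (ZMod.natCast_eq_zero_iff _ _).2 h0
    · show v 1 = 0
      rw [← ZMod.natCast_zmod_val (v 1)]; exact (ZMod.natCast_eq_zero_iff _ _).2 h1
  have hc : Nat.card (Fin 2 → ZMod n) = Nat.card M := by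
    rw [← Nat.card_congr (Equiv.subtypeUnivEquiv hM), hcard n dvd_rfl, Nat.card_fun,
      Nat.card_zmod, Nat.card_fin]
  exact ⟨(LinearEquiv.ofBijective φ
    ((Nat.bijective_iff_injective_and_card φ).2 ⟨hinj, hc⟩)).symm⟩

end Fermat.Agent.EC
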