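/-
Structure of `E[n]`, and the Galois action on the torsion of curves over `ℚ`.
-/
import Fermat.Agent.EC.TorsionCard
import Fermat.Agent.EC.RankTwo
import Mathlib.FieldTheory.IsAlgClosed.AlgebraicClosure
import Mathlib.RingTheory.Algebraic.Integral
import Fermat.Prelude.Def_GaloisRep_Residual

set_option autoImplicit false

namespace Fermat.Agent.EC

open WeierstrassCurve WeierstrassCurve.Affine

section structureThm

variable {K : Type*} [Field K] [DecidableEq K] [IsAlgClosed K] {R : Type*} [CommRing R]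
  [Algebra R K] {W : WeierstrassCurve.Affine R} [(W⁄K).IsElliptic]

omit [IsAlgClosed K] [(W⁄K).IsElliptic] in
theorem nsmul_eq_zero_iff_torsion {n d : ℕ} (hd : d ∣ n)
    (P : Submodule.torsionBy ℤ (W⁄K).Point n) :
    d • P = 0 ↔ (P : (W⁄K).Point) ∈ Submodule.torsionBy ℤ (W⁄K).Point d := by
  rw [mem_torsionBy_iff_nsmul, ← Subtype.coe_inj]
  simp

/-- `E[n]` has `d²` elements killed by a divisor `d` of `n`. -/
theorem card_torsion_of_dvd {n d : ℕ} (hn : (n : K) ≠ 0) (hd : d ∣ n) :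
    Nat.card {P : Submodule.torsionBy ℤ (W⁄K).Point n // d • P = 0} = d ^ 2 := by
  have hd0 : (d : K) ≠ 0 := by
    obtain ⟨e, rfl⟩ := hd
    push_cast at hn
    exact left_ne_zero_of_mul hn
  rw [← card_torsionBy (W := (W⁄K)) hd0]
  refine Nat.card_congr
    { toFun := fun P => ⟨P.1.1, (nsmul_eq_zero_iff_torsion hd P.1).1 P.2⟩
      invFun := fun P => ⟨⟨P.1, mem_torsionBy_iff_nsmul.2 ?_⟩,
        (nsmul_eq_zero_iff_torsion hd _).2 P.2⟩
      left_inv := fun P => rfl
      right_inv := fun P => rfl }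
  obtain ⟨e, rfl⟩ := hd
  rw [mul_nsmul, mem_torsionBy_iff_nsmul.1 P.2, nsmul_zero]

/-- `E[n] ≅ (ℤ/n)²` as `ZMod n`-modules. -/
theorem nonempty_torsionBy_linearEquiv {n : ℕ} (hn : (n : K) ≠ 0) :
    Nonempty (Submodule.torsionBy ℤ (W⁄K).Point n ≃ₗ[ZMod n] (Fin 2 → ZMod n)) := by
  haveI : NeZero n := ⟨by rintro rfl; simp at hn⟩
  haveI : Finite (Submodule.torsionBy ℤ (W⁄K).Point n) := finite_torsionBy hn
  exact nonempty_linearEquiv_fin_two_of_card (NeZero.ne n)
    (fun d hd => card_torsion_of_dvd hn hd)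

/-- `E[p]` is a plane over `ZMod p`. -/
theorem finrank_torsionBy {p : ℕ} [Fact p.Prime] (hp : (p : K) ≠ 0) :
    Module.finrank (ZMod p) (Submodule.torsionBy ℤ (W⁄K).Point p) = 2 := by
  obtain ⟨e⟩ := nonempty_torsionBy_linearEquiv (W := W) hp
  rw [e.finrank_eq, Module.finrank_fin_fun]

/-- `E[n]` is finite free over `ZMod n`. -/
theorem free_torsionBy {n : ℕ} (hn : (n : K) ≠ 0) :
    Module.Free (ZMod n) (Submodule.torsionBy ℤ (W⁄K).Point n) ∧
      Module.Finite (ZMod n) (Submodule.torsionBy ℤ (W⁄K).Point n) := by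
  obtain ⟨e⟩ := nonempty_torsionBy_linearEquiv (W := W) hn
  exact ⟨Module.Free.of_equiv e.symm, Module.Finite.equiv e.symm⟩

end structureThm

section rationals

local notation "Qbar" => AlgebraicClosure ℚ

variable {R : Type*} [CommRing R] [Algebra R ℚ] [Algebra R Qbar] [@IsScalarTower R ℚ Qbar Algebra.toSMul Algebra.toSMul Algebra.toSMul]
  {W : WeierstrassCurve.Affine R} [(W⁄Qbar).IsElliptic]

/-- `#E[n](ℚ̄) = n²`. -/
theorem card_torsionBy_Qbar {n : ℕ} (hn : n ≠ 0) :
    Nat.card (Submodule.torsionBy ℤ (W⁄Qbar).Point n) = n ^ 2 :=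
  card_torsionBy (Nat.cast_ne_zero.2 hn)

/-- `E[n](ℚ̄)` is finite. -/
theorem finite_torsionBy_Qbar {n : ℕ} (hn : n ≠ 0) :
    Finite (Submodule.torsionBy ℤ (W⁄Qbar).Point n) :=
  finite_torsionBy (Nat.cast_ne_zero.2 hn)

/-- The action on `E[n]` factors through the Galois group of a finite extension. -/
theorem exists_finiteDimensional_fixing_torsionBy {n : ℕ} (hn : n ≠ 0) :
    ∃ L : IntermediateField ℚ Qbar, FiniteDimensional ℚ L ∧
      ∀ σ : Qbar ≃ₐ[ℚ] Qbar, (∀ x ∈ L, σ x = x) →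
        ∀ P : Submodule.torsionBy ℤ (W⁄Qbar).Point n, σ • P = P := by
  classical
  haveI := finite_torsionBy_Qbar (W := W) hn
  let co : Submodule.torsionBy ℤ (W⁄Qbar).Point n → Set Qbar := fun P =>
    match P.1 with
    | .zero => ∅
    | .some x y _ => {x, y}
  have hco : ∀ P, (co P).Finite := by
    rintro ⟨_ | ⟨x, y, h⟩, hP⟩
    · exact Set.finite_empty
    · exact Set.toFinite _
  refine ⟨IntermediateField.adjoin ℚ (⋃ P, co P), ?_, fun σ hσ P => ?_⟩
  · haveI : Algebra.IsAlgebraic ℚ Qbar := by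
      rw [Subsingleton.elim (DivisionRing.toRatAlgebra : Algebra ℚ Qbar)
        (AlgebraicClosure.instAlgebra ℚ)]
      exact AlgebraicClosure.isAlgebraic ℚ
    haveI : Finite (⋃ P, co P : Set Qbar) := (Set.finite_iUnion hco).to_subtype
    exact IntermediateField.finiteDimensional_adjoin fun x _ => (Algebra.IsAlgebraic.isAlgebraic (R := ℚ) x).isIntegral
  · have hfix : ∀ z ∈ co P, σ z = z := fun z hz =>
      hσ z (IntermediateField.subset_adjoin ℚ _ (Set.mem_iUnion.2 ⟨P, hz⟩))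
    apply Subtype.ext
    show σ • (P : (W⁄Qbar).Point) = P
    rw [Point.algEquiv_smul_def]
    obtain ⟨_ | ⟨x, y, h⟩, hP⟩ := P
    · rfl
    · rw [Point.map_some, Point.some.injEq]
      exact ⟨hfix x (Set.mem_insert _ _), hfix y (Set.mem_insert_of_mem _ rfl)⟩

end rationals

/-- The hypothesis `hker` of `WeierstrassCurve.residualGaloisRepOf`. -/
theorem galoisFactorsThroughFiniteLevel {R : Type} [CommRing R] [Algebra R ℚ]
    [Algebra R (AlgebraicClosure ℚ)] [@IsScalarTower R ℚ (AlgebraicClosure ℚ) Algebra.toSMul Algebra.toSMul Algebra.toSMul]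
    (W : WeierstrassCurve.Affine R) [(W⁄(AlgebraicClosure ℚ)).IsElliptic] {n : ℕ} (hn : n ≠ 0) :
    GaloisFactorsThroughFiniteLevel
      (WeierstrassCurve.Affine.Point.galoisRepModuleEnd (K := AlgebraicClosure ℚ) ℚ W n) := by
  obtain ⟨L, hL, hfix⟩ := exists_finiteDimensional_fixing_torsionBy (W := W) hn
  exact ⟨L, hL, fun σ hσ => LinearMap.ext fun P => hfix σ hσ P⟩

end Fermat.Agent.EC
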